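import Mathlib
import Fermat.Agent.CFT.Idele.Global
import Fermat.Agent.CFT.Dict.Places
import Fermat.Prelude.Def_ClassGroup_GaloisAction

/-!
# S14b (Cl): from ideles to ideal classes

For a number field `K`, in the tensor model `J K` of the finite ideles:

* `divFinsupp x` : the divisor `w ↦ v_w(x)` of an idele; `idl x` the fractional ideal `∏ w^(v_w x)`;
* `toCl K : J K →* ClassGroup (𝓞 K)`, surjective, with kernel `Kˣ · ∏_q U_q`;
* Galois equivariance `toCl_smul`;
* `clLift` : homomorphisms from `J K` killing principal ideles and unit ideles factor through the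
  class group.
-/

set_option autoImplicit false

open scoped TensorProduct NumberField nonZeroDivisors

open IsDedekindDomain Fermat.Agent.CFT.Idele Fermat.Agent.CFT.Dict Fermat.Agent.CFT.C3.ClassGen

noncomputable section

namespace Fermat.Agent.S14.IdeleClassGroup

variable (K : Type) [Field K] [NumberField K]

/-! ### Divisors -/

/-- the fractional ideal attached to a divisor -/
def fracOf (n : HeightOneSpectrum (𝓞 K) →₀ ℤ) : FractionalIdeal (𝓞 K)⁰ K :=
  n.prod fun w k => (w.asIdeal : FractionalIdeal (𝓞 K)⁰ K) ^ k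

theorem fracOf_ne_zero (n : HeightOneSpectrum (𝓞 K) →₀ ℤ) : fracOf K n ≠ 0 := by
  rw [fracOf, Finsupp.prod_ne_zero_iff]
  intro w _
  exact zpow_ne_zero _ (FractionalIdeal.coeIdeal_ne_zero.mpr w.ne_bot)

theorem fracOf_zero : fracOf K 0 = 1 := Finsupp.prod_zero_index

theorem fracOf_add (m n : HeightOneSpectrum (𝓞 K) →₀ ℤ) :
    fracOf K (m + n) = fracOf K m * fracOf K n := by
  unfold fracOf
  refine Finsupp.prod_add_index' (fun w => zpow_zero _) fun w a b => ?_
  exact zpow_add₀ (FractionalIdeal.coeIdeal_ne_zero.mpr w.ne_bot) a b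

theorem count_fracOf (n : HeightOneSpectrum (𝓞 K) →₀ ℤ) (w : HeightOneSpectrum (𝓞 K)) :
    FractionalIdeal.count K w (fracOf K n) = n w :=
  FractionalIdeal.count_finsuppProd K w n

/-- nonzero fractional ideals with the same multiplicities are equal -/
theorem eq_of_count_eq {I I' : FractionalIdeal (𝓞 K)⁰ K} (hI : I ≠ 0) (hI' : I' ≠ 0)
    (h : ∀ w, FractionalIdeal.count K w I = FractionalIdeal.count K w I') : I = I' := by
  rw [← FractionalIdeal.finprod_heightOneSpectrum_factorization' K hI,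
    ← FractionalIdeal.finprod_heightOneSpectrum_factorization' K hI']
  exact finprod_congr fun w => by rw [h w]

/-- a nonzero fractional ideal is the fractional ideal of its divisor -/
theorem exists_fracOf_eq (I : FractionalIdeal (𝓞 K)⁰ K) (hI : I ≠ 0) :
    ∃ n : HeightOneSpectrum (𝓞 K) →₀ ℤ, fracOf K n = I ∧
      ∀ w, n w = FractionalIdeal.count K w I := by
  have hfin : (Function.support fun w : HeightOneSpectrum (𝓞 K) =>
      FractionalIdeal.count K w I).Finite := by
    have := FractionalIdeal.finite_factors (R := 𝓞 K) (K := K) I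
    rw [Filter.eventually_cofinite] at this
    exact this
  refine ⟨Finsupp.ofSupportFinite _ hfin, ?_, fun w => rfl⟩
  apply eq_of_count_eq K (fracOf_ne_zero K _) hI
  intro w
  rw [count_fracOf]
  rfl

/-- the group homomorphism from divisors to invertible fractional ideals -/
def divHom : Multiplicative (HeightOneSpectrum (𝓞 K) →₀ ℤ) →* (FractionalIdeal (𝓞 K)⁰ K)ˣ where
  toFun n := Units.mk0 (fracOf K (Multiplicative.toAdd n)) (fracOf_ne_zero K _)
  map_one' := Units.ext (fracOf_zero K)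
  map_mul' _ _ := Units.ext (fracOf_add K _ _)

theorem coe_divHom (n : Multiplicative (HeightOneSpectrum (𝓞 K) →₀ ℤ)) :
    ((divHom K n : (FractionalIdeal (𝓞 K)⁰ K)ˣ) : FractionalIdeal (𝓞 K)⁰ K)
      = fracOf K (Multiplicative.toAdd n) := rfl

theorem divHom_surjective : Function.Surjective (divHom K) := by
  intro I
  obtain ⟨n, hn, -⟩ := exists_fracOf_eq K (I : FractionalIdeal (𝓞 K)⁰ K) I.ne_zero
  exact ⟨Multiplicative.ofAdd n, Units.ext hn⟩

/-! ### The divisor of an idele -/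

variable {K}

/-- the divisor of an idele: `w ↦ v_w(x) = - ordW x w` -/
def divFinsupp (x : J K) : HeightOneSpectrum (𝓞 K) →₀ ℤ :=
  -Finsupp.ofSupportFinite _ (finite_support_ordW x)

theorem divFinsupp_apply (x : J K) (w : HeightOneSpectrum (𝓞 K)) :
    divFinsupp x w = -ordW (x : ∀ q : Nat.Primes, (Loc K q)ˣ) w := rfl

theorem ordW_mul (x y : ∀ q : Nat.Primes, (Loc K q)ˣ) (w : HeightOneSpectrum (𝓞 K)) :
    ordW (x * y) w = ordW x w + ordW y w := by
  unfold ordW
  rw [Pi.mul_apply, map_mul, toAdd_mul]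

theorem ordW_one (w : HeightOneSpectrum (𝓞 K)) :
    ordW (1 : ∀ q : Nat.Primes, (Loc K q)ˣ) w = 0 := by
  unfold ordW
  rw [Pi.one_apply, map_one, toAdd_one]

variable (K)

/-- the divisor map as a homomorphism -/
def divJ : J K →* Multiplicative (HeightOneSpectrum (𝓞 K) →₀ ℤ) where
  toFun x := Multiplicative.ofAdd (divFinsupp x)
  map_one' := by
    apply Multiplicative.toAdd.injective
    ext w
    show divFinsupp (1 : J K) w = 0
    rw [divFinsupp_apply]
    show -ordW (1 : ∀ q : Nat.Primes, (Loc K q)ˣ) w = 0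
    rw [ordW_one, neg_zero]
  map_mul' x y := by
    apply Multiplicative.toAdd.injective
    ext w
    show divFinsupp (x * y) w = divFinsupp x w + divFinsupp y w
    rw [divFinsupp_apply, divFinsupp_apply, divFinsupp_apply]
    show -ordW ((x : ∀ q : Nat.Primes, (Loc K q)ˣ) * (y : ∀ q : Nat.Primes, (Loc K q)ˣ)) w = _
    rw [ordW_mul]
    ring

theorem toAdd_divJ (x : J K) : Multiplicative.toAdd (divJ K x) = divFinsupp x := rfl

/-- the fractional ideal of an idele -/
def idl : J K →* (FractionalIdeal (𝓞 K)⁰ K)ˣ := (divHom K).comp (divJ K)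

theorem count_idl (x : J K) (w : HeightOneSpectrum (𝓞 K)) :
    FractionalIdeal.count K w ((idl K x : (FractionalIdeal (𝓞 K)⁰ K)ˣ) : FractionalIdeal (𝓞 K)⁰ K)
      = -ordW (x : ∀ q : Nat.Primes, (Loc K q)ˣ) w := by
  show FractionalIdeal.count K w (fracOf K (divFinsupp x)) = _
  rw [count_fracOf, divFinsupp_apply]

/-- **the map from ideles to ideal classes** -/
def toCl : J K →* ClassGroup (𝓞 K) := (ClassGroup.mk K).comp (idl K)

theorem toCl_apply (x : J K) : toCl K x = ClassGroup.mk K (idl K x) := rfl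

/-! ### Principal ideles and unit ideles -/

theorem ordW_diag (a : Kˣ) (w : HeightOneSpectrum (𝓞 K)) :
    ordW (diag K a : ∀ q : Nat.Primes, (Loc K q)ˣ) w = WithZero.log (w.valuation K (a : K)) := by
  unfold ordW
  rw [toAdd_ordAt_diag, primeOverOf_toHeightOneSpectrum]

/-- the fractional ideal of a principal idele is the principal fractional ideal -/
theorem coe_idl_diag (a : Kˣ) :
    ((idl K (diag K a) : (FractionalIdeal (𝓞 K)⁰ K)ˣ) : FractionalIdeal (𝓞 K)⁰ K)
      = FractionalIdeal.spanSingleton (𝓞 K)⁰ (a : K) := by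
  have h0 : FractionalIdeal.spanSingleton (𝓞 K)⁰ (a : K) ≠ 0 := by
    rw [Ne, FractionalIdeal.spanSingleton_eq_zero_iff]
    exact a.ne_zero
  apply eq_of_count_eq K (Units.ne_zero _) h0
  intro w
  rw [count_idl, ordW_diag, log_valuation_eq_neg_count K w a.ne_zero, neg_neg]

theorem toCl_diag (a : Kˣ) : toCl K (diag K a) = 1 := by
  rw [toCl_apply, ClassGroup.mk_eq_one_iff, coe_idl_diag, FractionalIdeal.coe_spanSingleton]
  exact ⟨⟨(a : K), rfl⟩⟩

theorem divFinsupp_eq_zero_iff (x : J K) :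
    divFinsupp x = 0 ↔ x ∈ JTsub K (∅ : Set Nat.Primes) := by
  rw [mem_JTsub]
  constructor
  · intro h q _
    rw [mem_intUnits_iff_forall_ordAt]
    intro v
    have h1 : divFinsupp x v.toHeightOneSpectrum = 0 := by rw [h]; rfl
    rw [divFinsupp_apply, neg_eq_zero, ordW_toHeightOneSpectrum] at h1
    exact Multiplicative.toAdd.injective h1
  · intro h
    ext w
    rw [divFinsupp_apply, Finsupp.zero_apply, neg_eq_zero]
    exact ordW_eq_zero_of_mem_intUnits _ w (h _ (Set.notMem_empty _))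

theorem idl_eq_one_iff (x : J K) : idl K x = 1 ↔ x ∈ JTsub K (∅ : Set Nat.Primes) := by
  rw [← divFinsupp_eq_zero_iff]
  constructor
  · intro h
    ext w
    have h1 := count_idl K x w
    rw [h, Units.val_one, FractionalIdeal.count_one] at h1
    rw [divFinsupp_apply, ← h1, Finsupp.zero_apply]
  · intro h
    apply Units.ext
    show fracOf K (divFinsupp x) = 1
    rw [h, fracOf_zero]

theorem toCl_eq_one_of_mem_JTsub {x : J K} (hx : x ∈ JTsub K (∅ : Set Nat.Primes)) :
    toCl K x = 1 := by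
  rw [toCl_apply, (idl_eq_one_iff K x).mpr hx, map_one]

/-- **the kernel of `J_K → Cl(K)` is `Kˣ · ∏_q U_q`** -/
theorem ker_toCl : (toCl K).ker = (diag K).range ⊔ JTsub K (∅ : Set Nat.Primes) := by
  apply le_antisymm
  · intro x hx
    rw [MonoidHom.mem_ker, toCl_apply, ClassGroup.mk_eq_one_iff] at hx
    obtain ⟨⟨a, ha⟩⟩ := hx
    have hI : ((idl K x : (FractionalIdeal (𝓞 K)⁰ K)ˣ) : FractionalIdeal (𝓞 K)⁰ K)
        = FractionalIdeal.spanSingleton (𝓞 K)⁰ a := by
      apply FractionalIdeal.coeToSubmodule_injective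
      change ((_ : FractionalIdeal (𝓞 K)⁰ K) : Submodule (𝓞 K) K) =
        ((FractionalIdeal.spanSingleton (𝓞 K)⁰ a : FractionalIdeal (𝓞 K)⁰ K) :
          Submodule (𝓞 K) K)
      rw [ha, FractionalIdeal.coe_spanSingleton]
    have ha0 : a ≠ 0 := by
      rintro rfl
      rw [FractionalIdeal.spanSingleton_zero] at hI
      exact Units.ne_zero _ hI
    have h1 : idl K x = idl K (diag K (Units.mk0 a ha0)) := by
      apply Units.ext
      rw [hI, coe_idl_diag, Units.val_mk0]
    have h2 : idl K ((diag K (Units.mk0 a ha0))⁻¹ * x) = 1 := by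
      rw [map_mul, map_inv, h1, inv_mul_cancel]
    have h3 : x = diag K (Units.mk0 a ha0) * ((diag K (Units.mk0 a ha0))⁻¹ * x) := by
      rw [mul_inv_cancel_left]
    rw [h3]
    exact Subgroup.mul_mem_sup ⟨_, rfl⟩ ((idl_eq_one_iff K _).mp h2)
  · rw [sup_le_iff]
    constructor
    · rintro _ ⟨a, rfl⟩
      exact toCl_diag K a
    · intro x hx
      exact toCl_eq_one_of_mem_JTsub K hx

/-! ### Surjectivity -/

theorem divJ_surjective : Function.Surjective (divJ K) := by
  classical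
  intro n'
  obtain ⟨n, rfl⟩ : ∃ n, Multiplicative.ofAdd n = n' := ⟨_, rfl⟩
  have h1 : ∀ q : Nat.Primes, ∃ u : (Loc K q)ˣ,
      (∀ v : PrimeOver (q : ℕ) (𝓞 K),
        v.ordAt u = Multiplicative.ofAdd (-(n v.toHeightOneSpectrum))) ∧
      ((∀ v : PrimeOver (q : ℕ) (𝓞 K), n v.toHeightOneSpectrum = 0) → u = 1) := by
    intro q
    by_cases h : ∀ v : PrimeOver (q : ℕ) (𝓞 K), n v.toHeightOneSpectrum = 0
    · refine ⟨1, fun v => ?_, fun _ => rfl⟩
      rw [map_one, h v, neg_zero, ofAdd_zero]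
    · obtain ⟨u, hu⟩ := PrimeOver.exists_forall_ordAt_eq
        (fun v : PrimeOver (q : ℕ) (𝓞 K) => -(n v.toHeightOneSpectrum))
      exact ⟨u, hu, fun h' => absurd h' h⟩
  choose u hu hu1 using h1
  have hmem : u ∈ J K := by
    rw [mem_J]
    refine (Finset.finite_toSet (n.support.image (natPrime K))).subset ?_
    intro q hq
    by_contra h
    apply hq
    rw [hu1 q]
    · exact (intUnits K q).one_mem
    · intro v
      by_contra hv
      apply h
      rw [Finset.mem_coe, Finset.mem_image]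
      exact ⟨v.toHeightOneSpectrum, Finsupp.mem_support_iff.mpr hv,
        mem_iff_eq_natPrime.mp (Fermat.Agent.CFT.Idele.PrimeOver.mem_toHeightOneSpectrum v)⟩
  refine ⟨⟨u, hmem⟩, ?_⟩
  apply Multiplicative.toAdd.injective
  ext w
  show divFinsupp (⟨u, hmem⟩ : J K) w = n w
  rw [divFinsupp_apply]
  show -ordW u w = n w
  unfold ordW
  rw [hu, toAdd_ofAdd, neg_neg, primeOverOf_toHeightOneSpectrum]

theorem idl_surjective : Function.Surjective (idl K) :=
  (divHom_surjective K).comp (divJ_surjective K)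

/-- **`J_K → Cl(K)` is surjective** -/
theorem toCl_surjective : Function.Surjective (toCl K) := by
  intro c
  refine ClassGroup.induction K (P := fun c => ∃ x, toCl K x = c) (fun I => ?_) c
  obtain ⟨x, rfl⟩ := idl_surjective K I
  exact ⟨x, rfl⟩

/-! ### Galois equivariance -/

section Galois

open Fermat.Agent.CFT.C3.GaloisVal

variable {K}

/-- the action of `σ` on finite places: `w ↦ σ(w)` -/
def hosMap (σ : K ≃ₐ[ℚ] K) (w : HeightOneSpectrum (𝓞 K)) : HeightOneSpectrum (𝓞 K) :=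
  comapEquiv (MulSemiringAction.toRingEquiv (K ≃ₐ[ℚ] K) (𝓞 K) σ⁻¹) w

theorem mem_hosMap (σ : K ≃ₐ[ℚ] K) (w : HeightOneSpectrum (𝓞 K)) (x : 𝓞 K) :
    x ∈ (hosMap σ w).asIdeal ↔ σ⁻¹ • x ∈ w.asIdeal := Iff.rfl

theorem hosMap_hosMap_inv (σ : K ≃ₐ[ℚ] K) (w : HeightOneSpectrum (𝓞 K)) :
    hosMap σ (hosMap σ⁻¹ w) = w := by
  apply HeightOneSpectrum.ext
  ext x
  rw [mem_hosMap, mem_hosMap, inv_inv, smul_inv_smul]

/-- the permutation of the finite places induced by `σ` -/
def hosEquiv (σ : K ≃ₐ[ℚ] K) : HeightOneSpectrum (𝓞 K) ≃ HeightOneSpectrum (𝓞 K) where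
  toFun := hosMap σ
  invFun := hosMap σ⁻¹
  left_inv w := by
    have := hosMap_hosMap_inv σ⁻¹ w
    rwa [inv_inv] at this
  right_inv w := hosMap_hosMap_inv σ w

theorem hosEquiv_apply (σ : K ≃ₐ[ℚ] K) (w : HeightOneSpectrum (𝓞 K)) :
    hosEquiv σ w = hosMap σ w := rfl

theorem toHeightOneSpectrum_smul' {q : Nat.Primes} (σ : K ≃ₐ[ℚ] K)
    (v : PrimeOver (q : ℕ) (𝓞 K)) : (σ • v).toHeightOneSpectrum = hosMap σ v.toHeightOneSpectrum :=
  PrimeOver.toHeightOneSpectrum_smul σ v

/-- **(D6)** in `ordW`-form -/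
theorem ordW_smul (σ : K ≃ₐ[ℚ] K) (x : J K) (w : HeightOneSpectrum (𝓞 K)) :
    ordW ((σ • x : J K) : ∀ q : Nat.Primes, (Loc K q)ˣ) (hosMap σ w)
      = ordW (x : ∀ q : Nat.Primes, (Loc K q)ˣ) w := by
  set q := natPrime K w with hq
  set v : PrimeOver (q : ℕ) (𝓞 K) := primeOverOf w q (natPrime_mem K w) with hv
  have hw : v.toHeightOneSpectrum = w := primeOverOf_toHeightOneSpectrum w q _
  have h1 : ordW (x : ∀ q : Nat.Primes, (Loc K q)ˣ) w
      = Multiplicative.toAdd (v.ordAt ((x : ∀ q : Nat.Primes, (Loc K q)ˣ) q)) := by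
    rw [← hw, ordW_toHeightOneSpectrum]
  have h2 : hosMap σ w = (σ • v).toHeightOneSpectrum := by
    rw [toHeightOneSpectrum_smul', hw]
  have h3 : ((σ • x : J K) : ∀ q : Nat.Primes, (Loc K q)ˣ) q
      = autUnits σ q ((x : ∀ q : Nat.Primes, (Loc K q)ˣ) q) := by
    apply Units.ext
    rw [Fermat.Agent.CFT.Idele.smul_apply, autUnits_apply]
  rw [h1, h2, ordW_toHeightOneSpectrum, h3, PrimeOver.ordAt_smul_autUnits]

theorem divFinsupp_smul (σ : K ≃ₐ[ℚ] K) (x : J K) :
    divFinsupp (σ • x) = Finsupp.equivMapDomain (hosEquiv σ) (divFinsupp x) := by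
  ext w
  rw [Finsupp.equivMapDomain_apply, divFinsupp_apply, divFinsupp_apply]
  have h := ordW_smul σ x ((hosEquiv σ).symm w)
  rw [← hosEquiv_apply, Equiv.apply_symm_apply] at h
  rw [h]

variable (K)

/-- the ideal class of a divisor -/
def clOf (n : HeightOneSpectrum (𝓞 K) →₀ ℤ) : ClassGroup (𝓞 K) :=
  ClassGroup.mk K (divHom K (Multiplicative.ofAdd n))

theorem toCl_eq_clOf (x : J K) : toCl K x = clOf K (divFinsupp x) := rfl

theorem clOf_add (m n : HeightOneSpectrum (𝓞 K) →₀ ℤ) : clOf K (m + n) = clOf K m * clOf K n := by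
  unfold clOf
  rw [ofAdd_add, map_mul, map_mul]

theorem clOf_zero : clOf K 0 = 1 := by
  unfold clOf
  rw [ofAdd_zero, map_one, map_one]

/-- the nonzero ideal of a finite place -/
def hosIdeal (w : HeightOneSpectrum (𝓞 K)) : (Ideal (𝓞 K))⁰ :=
  ⟨w.asIdeal, mem_nonZeroDivisors_iff_ne_zero.mpr w.ne_bot⟩

theorem clOf_single (w : HeightOneSpectrum (𝓞 K)) (k : ℤ) :
    clOf K (Finsupp.single w k) = ClassGroup.mk0 (hosIdeal K w) ^ k := by
  rw [← ClassGroup.mk_mk0 K, ← map_zpow]
  unfold clOf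
  congr 1
  apply Units.ext
  rw [coe_divHom, toAdd_ofAdd, fracOf, Finsupp.prod_single_index (zpow_zero _), Units.val_zpow_eq_zpow_val,
    FractionalIdeal.coe_mk0]
  rfl

/-- `σ(w)` is the image of `w` under the restriction of `σ` to `𝓞 K` -/
theorem mapNonZero_hosIdeal (σ : K ≃ₐ[ℚ] K) (w : HeightOneSpectrum (𝓞 K)) :
    Ideal.mapNonZero (galRestrictionDatum ℤ ℚ K (𝓞 K) σ) (hosIdeal K w)
      = hosIdeal K (hosMap σ w) := by
  apply Subtype.ext
  rw [Ideal.coe_mapNonZero]
  show Ideal.map ((galRestrictionDatum ℤ ℚ K (𝓞 K) σ : 𝓞 K ≃+* 𝓞 K) : 𝓞 K →+* 𝓞 K) w.asIdeal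
    = (hosMap σ w).asIdeal
  rw [Ideal.map_comap_of_equiv]
  ext x
  rw [Ideal.mem_comap, mem_hosMap]
  have : (galRestrictionDatum ℤ ℚ K (𝓞 K) σ).symm x = σ⁻¹ • x := by
    apply (galRestrictionDatum ℤ ℚ K (𝓞 K) σ).injective
    rw [RingEquiv.apply_symm_apply]
    apply NumberField.RingOfIntegers.ext
    rw [galRestrictionDatum_apply]
    show (x : K) = algebraMap (𝓞 K) K (galRestrict ℤ ℚ K (𝓞 K) σ (σ⁻¹ • x))
    rw [algebraMap_galRestrict_apply]
    show (x : K) = σ (σ⁻¹ ((x : K)))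
    exact (σ.apply_symm_apply _).symm
  rw [this]

theorem mulEquiv_clOf (σ : K ≃ₐ[ℚ] K) (n : HeightOneSpectrum (𝓞 K) →₀ ℤ) :
    ClassGroup.mulEquiv (galRestrictionDatum ℤ ℚ K (𝓞 K) σ) (clOf K n)
      = clOf K (Finsupp.equivMapDomain (hosEquiv σ) n) := by
  induction n using Finsupp.induction_linear with
  | zero =>
    rw [Finsupp.equivMapDomain_zero, clOf_zero, map_one]
  | add m n hm hn =>
    rw [clOf_add, map_mul, hm, hn, ← clOf_add]
    congr 1
    ext w
    simp [Finsupp.equivMapDomain_apply]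
  | single w k =>
    rw [Finsupp.equivMapDomain_single, clOf_single, clOf_single, map_zpow,
      ClassGroup.mulEquiv_mk0, mapNonZero_hosIdeal]
    rfl

/-- **Galois equivariance of `J_K → Cl(K)`** -/
theorem toCl_smul (σ : K ≃ₐ[ℚ] K) (x : J K) :
    toCl K (σ • x)
      = ClassGroup.mulEquiv (galRestrictionDatum ℤ ℚ K (𝓞 K) σ) (toCl K x) := by
  rw [toCl_eq_clOf, toCl_eq_clOf, mulEquiv_clOf, divFinsupp_smul]

end Galois

/-! ### Descent to the class group -/

section Lift

variable {A : Type*} [CommGroup A]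

/-- a homomorphism on the ideles which kills the principal ideles and the unit ideles kills the
kernel of `toCl` -/
theorem ker_toCl_le_ker (f : J K →* A) (h1 : ∀ a : Kˣ, f (diag K a) = 1)
    (h2 : ∀ x ∈ JTsub K (∅ : Set Nat.Primes), f x = 1) : (toCl K).ker ≤ f.ker := by
  rw [ker_toCl, sup_le_iff]
  constructor
  · rintro _ ⟨a, rfl⟩
    exact h1 a
  · intro x hx
    exact h2 x hx

/-- **descent**: a homomorphism on the ideles which kills the principal ideles and the unit
ideles factors through the ideal class group -/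
def clLift (f : J K →* A) (h1 : ∀ a : Kˣ, f (diag K a) = 1)
    (h2 : ∀ x ∈ JTsub K (∅ : Set Nat.Primes), f x = 1) : ClassGroup (𝓞 K) →* A :=
  (QuotientGroup.lift (toCl K).ker f (ker_toCl_le_ker K f h1 h2)).comp
    (QuotientGroup.quotientKerEquivOfSurjective (toCl K) (toCl_surjective K)).symm.toMonoidHom

theorem clLift_toCl (f : J K →* A) (h1 : ∀ a : Kˣ, f (diag K a) = 1)
    (h2 : ∀ x ∈ JTsub K (∅ : Set Nat.Primes), f x = 1) (x : J K) :
    clLift K f h1 h2 (toCl K x) = f x := by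
  unfold clLift
  rw [MonoidHom.comp_apply]
  have : (QuotientGroup.quotientKerEquivOfSurjective (toCl K) (toCl_surjective K)).symm
      (toCl K x) = QuotientGroup.mk x := by
    rw [MulEquiv.symm_apply_eq]
    rfl
  rw [MulEquiv.coe_toMonoidHom, this]
  rfl

theorem clLift_unique (f : J K →* A) (h1 : ∀ a : Kˣ, f (diag K a) = 1)
    (h2 : ∀ x ∈ JTsub K (∅ : Set Nat.Primes), f x = 1) (g : ClassGroup (𝓞 K) →* A)
    (hg : ∀ x, g (toCl K x) = f x) : g = clLift K f h1 h2 := by
  ext c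
  obtain ⟨x, rfl⟩ := toCl_surjective K c
  rw [hg, clLift_toCl]

/-- `clLift f` is onto as soon as `f` is -/
theorem clLift_surjective (f : J K →* A) (h1 : ∀ a : Kˣ, f (diag K a) = 1)
    (h2 : ∀ x ∈ JTsub K (∅ : Set Nat.Primes), f x = 1) (hf : Function.Surjective f) :
    Function.Surjective (clLift K f h1 h2) := by
  intro a
  obtain ⟨x, rfl⟩ := hf a
  exact ⟨toCl K x, clLift_toCl K f h1 h2 x⟩

/-- the induced map on the idele class group -/
def toClC : C K →* ClassGroup (𝓞 K) :=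
  QuotientGroup.lift (diag K).range (toCl K) (by
    rintro _ ⟨a, rfl⟩
    exact toCl_diag K a)

theorem toClC_toC (x : J K) : toClC K (toC K x) = toCl K x := rfl

theorem toClC_surjective : Function.Surjective (toClC K) := by
  intro c
  obtain ⟨x, rfl⟩ := toCl_surjective K c
  exact ⟨toC K x, rfl⟩

/-- the kernel of `C_K → Cl(K)` is the image of the unit ideles -/
theorem toClC_eq_one_iff (c : C K) :
    toClC K c = 1 ↔ ∃ x ∈ JTsub K (∅ : Set Nat.Primes), toC K x = c := by
  obtain ⟨x, rfl⟩ := toC_surjective K c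
  rw [toClC_toC, ← MonoidHom.mem_ker, ker_toCl]
  constructor
  · intro h
    obtain ⟨y, ⟨a, rfl⟩, z, hz, rfl⟩ := Subgroup.mem_sup.mp h
    exact ⟨z, hz, by rw [map_mul, toC_diag, one_mul]⟩
  · rintro ⟨z, hz, hzx⟩
    have h1 : toC K (x * z⁻¹) = 1 := by rw [map_mul, map_inv, hzx, mul_inv_cancel]
    obtain ⟨a, ha⟩ := (toC_eq_one_iff K _).mp h1
    have h2 : x = diag K a * z := by rw [ha, inv_mul_cancel_right]
    rw [h2]
    exact Subgroup.mul_mem_sup ⟨a, rfl⟩ hz

theorem toClC_smul (σ : K ≃ₐ[ℚ] K) (c : C K) :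
    toClC K (σ • c)
      = ClassGroup.mulEquiv (galRestrictionDatum ℤ ℚ K (𝓞 K) σ) (toClC K c) := by
  obtain ⟨x, rfl⟩ := toC_surjective K c
  rw [smul_toC, toClC_toC, toClC_toC, toCl_smul]

end Lift

end Fermat.Agent.S14.IdeleClassGroup
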