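/-
S14a WIRING (helper6).

An admissible extension `0 → C → V → V/C → 0` (prelude `ExtCitation.IsAdmissibleExtensionCts`:
`C` a fixed line, `V/C` cyclotomic, unramified outside `p`, split on every decomposition group
over `p`, open kernel) which is NOT globally split produces a character
`b : G_K → ℤ/p` of `G_K = ker (cycloChar p)` (`K = ℚ(ζ_p)`) which is
* nontrivial with open kernel,
* of `Δ`-type `ω⁻¹`:  `b (s t s⁻¹) = b t ^ (χ(s)⁻¹)`,
* trivial on `I_A ∩ G_K` for every valuation subring `A` of `ℚ̄` over a prime,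
* trivial on `D_A ∩ G_K` for every `A` over `p`.
So, if no such character exists (`NoOmegaInvClassField p`), `ExtVanishingCts p` holds.
-/
import Mathlib
import Fermat.Prelude.Def_ExtCitation_AdmissibleExtension_v2
import Fermat.Prelude.Def_ExtCitation_KummerBridge

set_option autoImplicit false

namespace Fermat.Agent.S14.Wiring

open ExtCitation ValuationSubring

/-- The absolute Galois group of `ℚ`. -/
abbrev GQ : Type := AlgebraicClosure ℚ ≃ₐ[ℚ] AlgebraicClosure ℚ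

/-- `G_K` for `K = ℚ(ζ_p)`: the kernel of the mod `p` cyclotomic character. -/
noncomputable def GK (p : ℕ) [Fact p.Prime] : Subgroup GQ := (cycloChar p).ker

instance normal_GK (p : ℕ) [Fact p.Prime] : (GK p).Normal := MonoidHom.normal_ker _

lemma mem_GK_iff {p : ℕ} [Fact p.Prime] (σ : GQ) : σ ∈ GK p ↔ cycloChar p σ = 1 :=
  MonoidHom.mem_ker

lemma conj_mem_GK {p : ℕ} [Fact p.Prime] (s : GQ) (t : ↥(GK p)) : s * t * s⁻¹ ∈ GK p :=
  (normal_GK p).conj_mem t t.2 s

/-- A character of `G_K` of the kind produced by a non-split admissible extension: it cuts out a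
cyclic degree `p` extension `L/K`, Galois over `ℚ`, unramified everywhere, totally split above
`p`, on whose Galois group `Δ = Gal(K/ℚ)` acts through `ω⁻¹`. -/
structure IsOmegaInvChar (p : ℕ) [Fact p.Prime] (b : ↥(GK p) →* Multiplicative (ZMod p)) :
    Prop where
  ne_one : b ≠ 1
  open_ker : IsOpen ((b.ker.map (GK p).subtype : Subgroup GQ) : Set GQ)
  conj : ∀ (s : GQ) (t : ↥(GK p)),
    b ⟨s * t * s⁻¹, conj_mem_GK s t⟩ = b t ^ (((cycloChar p s)⁻¹ : (ZMod p)ˣ) : ZMod p).val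
  unram : ∀ ℓ : ℕ, ℓ.Prime → ∀ A : ValuationSubring (AlgebraicClosure ℚ), A.LiesOverPrime ℓ →
    ∀ t : ↥(GK p), (t : GQ) ∈ A.inertiaSubgroupIn ℚ → b t = 1
  split : ∀ A : ValuationSubring (AlgebraicClosure ℚ), A.LiesOverPrime p →
    ∀ t : ↥(GK p), (t : GQ) ∈ A.decompositionSubgroup ℚ → b t = 1

/-- There is no everywhere unramified, `p`-split cyclic degree `p` extension of `ℚ(ζ_p)` of
`Δ`-type `ω⁻¹` (in character form). -/
def NoOmegaInvClassField (p : ℕ) [Fact p.Prime] : Prop :=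
  ¬ ∃ b : ↥(GK p) →* Multiplicative (ZMod p), IsOmegaInvChar p b

/-! ### The cyclotomic character is nontrivial for `p ≥ 3` -/

lemma exists_cycloChar_ne_one {p : ℕ} [Fact p.Prime] (h3 : 3 ≤ p) :
    ∃ δ : GQ, cycloChar p δ ≠ 1 := by
  have hp : p.Prime := Fact.out
  have : NeZero p := ⟨hp.ne_zero⟩
  have : NeZero ((p : ℕ) : ℚ) := ⟨Nat.cast_ne_zero.mpr hp.ne_zero⟩
  have : Algebra.IsAlgebraic ℚ (AlgebraicClosure ℚ) := AlgebraicClosure.isAlgebraic ℚ
  have : IsAlgClosure ℚ (AlgebraicClosure ℚ) := ⟨inferInstance, inferInstance⟩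
  have : Normal ℚ (AlgebraicClosure ℚ) := IsAlgClosure.normal ℚ (AlgebraicClosure ℚ)
  obtain ⟨ζ, hζ⟩ := HasEnoughRootsOfUnity.exists_primitiveRoot (AlgebraicClosure ℚ) p
  have hirr : Irreducible (Polynomial.cyclotomic p ℚ) :=
    Polynomial.cyclotomic.irreducible_rat hp.pos
  have hζ' : IsPrimitiveRoot ζ⁻¹ p := hζ.inv
  have hconj : IsConjRoot ℚ ζ⁻¹ ζ := by
    unfold IsConjRoot
    rw [← hζ'.minpoly_eq_cyclotomic_of_irreducible hirr,
      ← hζ.minpoly_eq_cyclotomic_of_irreducible hirr]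
  obtain ⟨σ, hσ⟩ := isConjRoot_iff_exists_algEquiv.1 hconj
  refine ⟨σ, fun h1 => ?_⟩
  -- `σ ζ = ζ⁻¹` but `χ σ = 1` forces `σ ζ = ζ`
  have hu : (hζ.isUnit hp.ne_zero).unit ∈ rootsOfUnity p (AlgebraicClosure ℚ) := by
    rw [mem_rootsOfUnity]
    ext
    simp [hζ.pow_eq_one]
  have hspec := modularCyclotomicCharacter.spec (AlgebraicClosure ℚ)
    (card_rootsOfUnity_eq_self p) (σ : AlgebraicClosure ℚ ≃+* AlgebraicClosure ℚ) hu
  have h1' : modularCyclotomicCharacter (AlgebraicClosure ℚ) (card_rootsOfUnity_eq_self p)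
      (σ : AlgebraicClosure ℚ ≃+* AlgebraicClosure ℚ) = 1 := h1
  rw [h1'] at hspec
  have hval : ((1 : (ZMod p)ˣ) : ZMod p).val = 1 := by
    have : Fact (1 < p) := ⟨hp.one_lt⟩
    simp [ZMod.val_one]
  rw [hval, pow_one] at hspec
  have hfix : σ ζ = ζ := by simpa using hspec
  rw [hfix] at hσ
  -- `ζ = ζ⁻¹` gives `ζ ^ 2 = 1`, so `p ∣ 2`
  have hsq : ζ ^ 2 = 1 := by
    have hne : ζ ≠ 0 := hζ.ne_zero hp.ne_zero
    calc ζ ^ 2 = ζ * ζ := sq ζ
      _ = ζ * ζ⁻¹ := by rw [← hσ]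
      _ = 1 := mul_inv_cancel₀ hne
  have hdvd : p ∣ 2 := hζ.dvd_of_pow_eq_one 2 hsq
  have : p ≤ 2 := Nat.le_of_dvd (by norm_num) hdvd
  omega

/-! ### Linear algebra of an admissible extension -/

section LinAlg

variable {p : ℕ} [Fact p.Prime]
variable {V : Type} [AddCommGroup V] [Module (ZMod p) V] [DistribMulAction GQ V]
  [SMulCommClass GQ (ZMod p) V] {C : Submodule (ZMod p) V}

lemma cycloExp_cast_eq_one {t : GQ} (ht : t ∈ GK p) : (cycloExp p t : ZMod p) = 1 := by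
  rw [← coe_cycloChar, (mem_GK_iff t).1 ht]; rfl

omit [SMulCommClass GQ (ZMod p) V] in
/-- Elements of `G_K` act unipotently. -/
lemma smul_sub_mem (hadm : IsAdmissibleExtension p V C) {t : GQ} (ht : t ∈ GK p) (x : V) :
    t • x - x ∈ C := by
  have h := hadm.cyclo_quot t x
  rwa [cycloExp_cast_eq_one ht, one_smul] at h

omit [SMulCommClass GQ (ZMod p) V] in
/-- The structure of `V`: a vector `v₀ ∉ C` spanning `V` modulo `C`, a generator `c₀` of `C`. -/
lemma exists_frame (hadm : IsAdmissibleExtension p V C) :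
    ∃ v₀ : V, v₀ ∉ C ∧ (∀ v : V, ∃ a : ZMod p, v - a • v₀ ∈ C) ∧
      ∃ c₀ : V, c₀ ∈ C ∧ c₀ ≠ 0 ∧ ∀ w ∈ C, ∃ a : ZMod p, w = a • c₀ := by
  have hp : p.Prime := Fact.out
  have hV : Finite V := Nat.finite_of_card_ne_zero (by
    rw [hadm.card_total]; exact pow_ne_zero _ hp.ne_zero)
  have hfV : Module.finrank (ZMod p) V = 2 := by
    have h := Module.natCard_eq_pow_finrank (K := ZMod p) (V := V)
    rw [hadm.card_total, Nat.card_zmod] at h
    exact (Nat.pow_right_injective hp.two_le h).symm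
  have hfC : Module.finrank (ZMod p) C = 1 := by
    have h := Module.natCard_eq_pow_finrank (K := ZMod p) (V := C)
    rw [hadm.card_sub, Nat.card_zmod] at h
    have h' : p ^ 1 = p ^ Module.finrank (ZMod p) C := by rwa [pow_one]
    exact (Nat.pow_right_injective hp.two_le h').symm
  have hfQ : Module.finrank (ZMod p) (V ⧸ C) = 1 := by
    have := Submodule.finrank_quotient_add_finrank C
    omega
  obtain ⟨q, hq0, hq⟩ := finrank_eq_one_iff'.1 hfQ
  obtain ⟨v₀, rfl⟩ := Submodule.mkQ_surjective C q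
  obtain ⟨c₀, hc0, hc⟩ := finrank_eq_one_iff'.1 hfC
  refine ⟨v₀, fun h => hq0 ((Submodule.Quotient.mk_eq_zero C).2 h), fun v => ?_,
    c₀.1, c₀.2, fun h => hc0 (Subtype.ext h), fun w hw => ?_⟩
  · obtain ⟨a, ha⟩ := hq (C.mkQ v)
    refine ⟨a, ?_⟩
    rw [← Submodule.Quotient.mk_eq_zero C, Submodule.Quotient.mk_sub,
      Submodule.Quotient.mk_smul]
    rw [Submodule.mkQ_apply, Submodule.mkQ_apply] at ha
    rw [ha, sub_self]
  · obtain ⟨a, ha⟩ := hc ⟨w, hw⟩
    exact ⟨a, (congrArg Subtype.val ha).symm⟩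

/-- An element of `G_K` fixing `v₀` fixes `V`. -/
lemma smul_eq_self_of_fix (hadm : IsAdmissibleExtension p V C) {v₀ : V}
    (hv : ∀ v : V, ∃ a : ZMod p, v - a • v₀ ∈ C) {t : GQ} (h0 : t • v₀ = v₀) (v : V) :
    t • v = v := by
  obtain ⟨a, ha⟩ := hv v
  have h1 : t • (v - a • v₀) = v - a • v₀ := hadm.fixed_sub t _ ha
  rw [smul_sub, smul_comm, h0] at h1
  exact sub_left_injective h1

omit [SMulCommClass GQ (ZMod p) V] in
/-- An element fixing `V` pointwise lies in `G_K`. -/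
lemma mem_GK_of_fix (hadm : IsAdmissibleExtension p V C) {v₀ : V} (hv₀ : v₀ ∉ C) {σ : GQ}
    (h : ∀ v : V, σ • v = v) : σ ∈ GK p := by
  rw [mem_GK_iff]
  have h1 := hadm.cyclo_quot σ v₀
  rw [h v₀, ← coe_cycloChar] at h1
  by_contra hne
  have hne' : (1 : ZMod p) - (cycloChar p σ : ZMod p) ≠ 0 := by
    intro h0
    apply hne
    ext
    rw [Units.val_one]
    exact (sub_eq_zero.1 h0).symm
  have h2 : ((1 : ZMod p) - (cycloChar p σ : ZMod p)) • v₀ ∈ C := by
    rwa [sub_smul, one_smul]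
  have h3 := C.smul_mem ((1 : ZMod p) - (cycloChar p σ : ZMod p))⁻¹ h2
  rw [smul_smul, inv_mul_cancel₀ hne', one_smul] at h3
  exact hv₀ h3

/-- The character of `G_K` attached to an admissible extension, a vector `v₀` and a functional. -/
noncomputable def charOf (hadm : IsAdmissibleExtension p V C) (v₀ : V)
    (φ : V →ₗ[ZMod p] ZMod p) : ↥(GK p) →* Multiplicative (ZMod p) where
  toFun t := Multiplicative.ofAdd (φ ((t : GQ) • v₀ - v₀))
  map_one' := by simp
  map_mul' t t' := by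
    have h1 : ((t * t' : ↥(GK p)) : GQ) • v₀ - v₀ =
        ((t' : GQ) • v₀ - v₀) + ((t : GQ) • v₀ - v₀) := by
      have hfix : (t : GQ) • ((t' : GQ) • v₀ - v₀) = (t' : GQ) • v₀ - v₀ :=
        hadm.fixed_sub t _ (smul_sub_mem hadm t'.2 v₀)
      rw [smul_sub] at hfix
      rw [Subgroup.coe_mul, mul_smul]
      have : (t : GQ) • (t' : GQ) • v₀ = (t' : GQ) • v₀ - v₀ + (t : GQ) • v₀ := by
        rw [← hfix]; abel
      rw [this]; abel
    rw [h1, map_add, ofAdd_add, mul_comm]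

omit [SMulCommClass GQ (ZMod p) V] in
lemma charOf_apply (hadm : IsAdmissibleExtension p V C) (v₀ : V) (φ : V →ₗ[ZMod p] ZMod p)
    (t : ↥(GK p)) :
    charOf hadm v₀ φ t = Multiplicative.ofAdd (φ ((t : GQ) • v₀ - v₀)) := rfl

omit [SMulCommClass GQ (ZMod p) V] in
lemma charOf_eq_one_iff (hadm : IsAdmissibleExtension p V C) (v₀ : V)
    (φ : V →ₗ[ZMod p] ZMod p) (hφ : ∀ w ∈ C, φ w = 0 → w = 0) (t : ↥(GK p)) :
    charOf hadm v₀ φ t = 1 ↔ (t : GQ) • v₀ = v₀ := by
  rw [charOf_apply, ← ofAdd_zero, Multiplicative.ofAdd.injective.eq_iff]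
  constructor
  · intro h
    exact sub_eq_zero.1 (hφ _ (smul_sub_mem hadm t.2 v₀) h)
  · intro h
    rw [h, sub_self, map_zero]

lemma charOf_conj (hadm : IsAdmissibleExtension p V C) (v₀ : V) (φ : V →ₗ[ZMod p] ZMod p)
    (s : GQ) (t : ↥(GK p)) :
    charOf hadm v₀ φ ⟨s * t * s⁻¹, conj_mem_GK s t⟩ =
      charOf hadm v₀ φ t ^ (((cycloChar p s)⁻¹ : (ZMod p)ˣ) : ZMod p).val := by
  have hp : p.Prime := Fact.out
  have : NeZero p := ⟨hp.ne_zero⟩
  set u : V := s⁻¹ • v₀ with hu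
  set χ' : ZMod p := (cycloExp p s⁻¹ : ZMod p) with hχ'
  have hc : u - χ' • v₀ ∈ C := hadm.cyclo_quot s⁻¹ v₀
  -- step 1: conjugate
  have h1 : (s * (t : GQ) * s⁻¹) • v₀ - v₀ = (t : GQ) • u - u := by
    have hmem : (t : GQ) • u - u ∈ C := smul_sub_mem hadm t.2 u
    have hfix : s • ((t : GQ) • u - u) = (t : GQ) • u - u := hadm.fixed_sub s _ hmem
    have hsu : s • u = v₀ := by rw [hu, smul_smul, mul_inv_cancel, one_smul]
    rw [← hfix, smul_sub, hsu, mul_smul, mul_smul]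
  -- step 2: decompose `u`
  have h2 : (t : GQ) • u - u = χ' • ((t : GQ) • v₀ - v₀) := by
    have hfix : (t : GQ) • (u - χ' • v₀) = u - χ' • v₀ := hadm.fixed_sub t _ hc
    rw [smul_sub, smul_comm (t : GQ) χ' v₀] at hfix
    rw [smul_sub]
    have : (t : GQ) • u = u - χ' • v₀ + χ' • (t : GQ) • v₀ := by rw [← hfix]; abel
    rw [this]; abel
  have h3 : χ' = (((cycloChar p s)⁻¹ : (ZMod p)ˣ) : ZMod p) := by
    rw [hχ', ← coe_cycloChar, map_inv]
  rw [charOf_apply, charOf_apply]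
  change Multiplicative.ofAdd (φ ((s * (t : GQ) * s⁻¹) • v₀ - v₀)) = _
  rw [h1, h2, map_smul, smul_eq_mul, ← ofAdd_nsmul, nsmul_eq_mul, ZMod.natCast_zmod_val, h3]

omit [SMulCommClass GQ (ZMod p) V] in
lemma charOf_unram (hadm : IsAdmissibleExtension p V C) (v₀ : V) (φ : V →ₗ[ZMod p] ZMod p)
    {ℓ : ℕ} (hℓ : ℓ.Prime) (hℓp : ℓ ≠ p) (A : ValuationSubring (AlgebraicClosure ℚ))
    (hA : A.LiesOverPrime ℓ) (t : ↥(GK p)) (ht : (t : GQ) ∈ A.inertiaSubgroupIn ℚ) :
    charOf hadm v₀ φ t = 1 := by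
  rw [charOf_apply, hadm.unramified_outside ℓ hℓ hℓp A hA t ht v₀, sub_self, map_zero,
    ofAdd_zero]

omit [SMulCommClass GQ (ZMod p) V] in
lemma charOf_split (hadm : IsAdmissibleExtension p V C) (v₀ : V) (φ : V →ₗ[ZMod p] ZMod p)
    (A : ValuationSubring (AlgebraicClosure ℚ)) (hA : A.LiesOverPrime p) (t : ↥(GK p))
    (ht : (t : GQ) ∈ A.decompositionSubgroup ℚ) : charOf hadm v₀ φ t = 1 := by
  obtain ⟨C', hC', hcompl⟩ := hadm.locally_split A hA
  have hmem : v₀ ∈ C ⊔ C' := by rw [hcompl.sup_eq_top]; trivial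
  obtain ⟨c, hc, c', hc', hsum⟩ := Submodule.mem_sup.1 hmem
  have h1 : (t : GQ) • c' - c' ∈ C := smul_sub_mem hadm t.2 c'
  have h2 : (t : GQ) • c' - c' ∈ C' := C'.sub_mem (hC' t ht c' hc') hc'
  have h3 : (t : GQ) • c' - c' = 0 := (Submodule.disjoint_def.1 hcompl.disjoint) _ h1 h2
  have h4 : (t : GQ) • c = c := hadm.fixed_sub t c hc
  have h5 : (t : GQ) • v₀ - v₀ = 0 := by
    rw [← hsum, smul_add, h4, sub_eq_zero.1 h3, sub_self]
  rw [charOf_apply, h5, map_zero, ofAdd_zero]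

lemma mem_decompositionSubgroup_of_mem_inertiaSubgroupIn
    (A : ValuationSubring (AlgebraicClosure ℚ)) {σ : GQ} (h : σ ∈ A.inertiaSubgroupIn ℚ) :
    σ ∈ A.decompositionSubgroup ℚ := by
  obtain ⟨x, _, rfl⟩ := Subgroup.mem_map.1 h
  exact x.2

/-- If `G_K` acts trivially then the extension splits globally (`p ≥ 3`). -/
lemma splitsGlobally_of_trivial (h3 : 3 ≤ p) (hadm : IsAdmissibleExtension p V C)
    (hfix : ∀ t : GQ, t ∈ GK p → ∀ v : V, t • v = v) : SplitsGlobally C := by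
  obtain ⟨δ, hδ⟩ := exists_cycloChar_ne_one h3
  set a : ZMod p := (cycloChar p δ : ZMod p) with ha
  have ha1 : (1 : ZMod p) - a ≠ 0 := by
    intro h0
    apply hδ
    ext
    rw [Units.val_one]
    exact (sub_eq_zero.1 h0).symm
  have hquot : ∀ v : V, δ • v - a • v ∈ C := fun v => by
    have := hadm.cyclo_quot δ v
    rwa [← coe_cycloChar] at this
  -- the action is commutative
  have hcomm : ∀ (σ : GQ) (x : V), δ • σ • x = σ • δ • x := by
    intro σ x
    have hmem : δ * σ * δ⁻¹ * σ⁻¹ ∈ GK p := by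
      rw [mem_GK_iff, map_mul, map_mul, map_mul, map_inv, map_inv]
      rw [mul_comm (cycloChar p δ) (cycloChar p σ), mul_inv_cancel_right, mul_inv_cancel]
    have := hfix _ hmem (σ • δ • x)
    rw [mul_smul, mul_smul, mul_smul, smul_smul σ⁻¹, inv_mul_cancel, one_smul,
      smul_smul δ⁻¹, inv_mul_cancel, one_smul] at this
    exact this
  let D : V →ₗ[ZMod p] V := DistribSMul.toLinearMap (ZMod p) V δ
  have hD : ∀ x, D x = δ • x := fun _ => rfl
  refine ⟨LinearMap.ker (D - a • LinearMap.id), ?_, ?_⟩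
  · intro σ x hx
    rw [LinearMap.mem_ker, LinearMap.sub_apply, LinearMap.smul_apply, LinearMap.id_apply,
      hD, sub_eq_zero] at hx ⊢
    rw [hcomm, hx, smul_comm]
  · refine ⟨disjoint_iff.2 ?_, codisjoint_iff.2 ?_⟩
    · rw [eq_bot_iff]
      rintro x ⟨hxC, hx⟩
      rw [SetLike.mem_coe, LinearMap.mem_ker, LinearMap.sub_apply, LinearMap.smul_apply,
        LinearMap.id_apply, hD, hadm.fixed_sub δ x hxC] at hx
      have : ((1 : ZMod p) - a) • x = 0 := by rw [sub_smul, one_smul]; exact hx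
      rcases smul_eq_zero.1 this with h | h
      · exact absurd h ha1
      · exact h
    · rw [_root_.eq_top_iff]
      intro v _
      set c : V := ((1 : ZMod p) - a)⁻¹ • (δ • v - a • v) with hc
      have hcC : c ∈ C := C.smul_mem _ (hquot v)
      have hc1 : ((1 : ZMod p) - a) • c = δ • v - a • v := by
        rw [hc, smul_smul, mul_inv_cancel₀ ha1, one_smul]
      refine Submodule.mem_sup.2 ⟨c, hcC, v - c, ?_, by abel⟩
      rw [LinearMap.mem_ker, LinearMap.sub_apply, LinearMap.smul_apply, LinearMap.id_apply,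
        hD, smul_sub, smul_sub, hadm.fixed_sub δ c hcC]
      have : δ • v - c - (a • v - a • c) = (δ • v - a • v) - ((1 : ZMod p) - a) • c := by
        rw [sub_smul, one_smul]; abel
      rw [this, hc1, sub_self]

end LinAlg

/-- **S14a.** If `ℚ(ζ_p)` has no everywhere unramified, `p`-split cyclic degree-`p` extension of
`Δ`-type `ω⁻¹`, then every continuous admissible extension splits globally. -/
theorem result_of {p : ℕ} [Fact p.Prime] (h3 : 3 ≤ p) (H : NoOmegaInvClassField p) :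
    ExtCitation.ExtVanishingCts p := by
  intro V _ _ _ _ C hadmc
  have hadm : IsAdmissibleExtension p V C := hadmc.toIsAdmissibleExtension
  obtain ⟨v₀, hv₀, hspan, c₀, hc₀C, hc₀, hgen⟩ := exists_frame hadm
  obtain ⟨φ, hφc⟩ : ∃ φ : V →ₗ[ZMod p] ZMod p, φ c₀ ≠ 0 := by
    by_contra hcon
    simp only [not_exists, not_not] at hcon
    exact hc₀ ((Module.forall_dual_apply_eq_zero_iff (ZMod p) c₀).1 hcon)
  have hφ : ∀ w ∈ C, φ w = 0 → w = 0 := by
    intro w hw h0
    obtain ⟨a, rfl⟩ := hgen w hw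
    rw [map_smul, smul_eq_mul, mul_eq_zero] at h0
    rcases h0 with h0 | h0
    · rw [h0, zero_smul]
    · exact absurd h0 hφc
  by_cases htriv : ∀ t : ↥(GK p), charOf hadm v₀ φ t = 1
  · apply splitsGlobally_of_trivial h3 hadm
    intro t ht v
    exact smul_eq_self_of_fix hadm hspan
      ((charOf_eq_one_iff hadm v₀ φ hφ ⟨t, ht⟩).1 (htriv ⟨t, ht⟩)) v
  · exfalso
    apply H
    refine ⟨charOf hadm v₀ φ, ?_, ?_, charOf_conj hadm v₀ φ, ?_, charOf_split hadm v₀ φ⟩
    · intro h1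
      apply htriv
      intro t
      rw [h1]; rfl
    · have hset : ((((charOf hadm v₀ φ).ker.map (GK p).subtype : Subgroup GQ)) : Set GQ) =
          {σ : GQ | ∀ v : V, σ • v = v} := by
        ext σ
        simp only [SetLike.mem_coe, Subgroup.mem_map, MonoidHom.mem_ker, Subgroup.coe_subtype,
          Set.mem_ofPred_eq]
        constructor
        · rintro ⟨t, ht, rfl⟩
          exact smul_eq_self_of_fix hadm hspan ((charOf_eq_one_iff hadm v₀ φ hφ t).1 ht)
        · intro h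
          exact ⟨⟨σ, mem_GK_of_fix hadm hv₀ h⟩,
            (charOf_eq_one_iff hadm v₀ φ hφ _).2 (h v₀), rfl⟩
      rw [hset]
      exact hadmc.open_kernel
    · intro ℓ hℓ A hA t ht
      by_cases hℓp : ℓ = p
      · subst hℓp
        exact charOf_split hadm v₀ φ A hA t
          (mem_decompositionSubgroup_of_mem_inertiaSubgroupIn A ht)
      · exact charOf_unram hadm v₀ φ hℓ hℓp A hA t ht

end Fermat.Agent.S14.Wiring
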