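/-
S14a WIRING, field form (helper6).

The kernel field of a character `b` with `Wiring.IsOmegaInvChar p b`: an intermediate field
`ℚ ⊆ L ⊆ ℚ̄`, finite and Galois over `ℚ`, containing `K = ℚ(ζ_p)` with `[L : K] = p`, unramified
everywhere over `K`, totally split above `p`, with `Δ` acting on `Gal(L/K)` through `ω⁻¹`.
-/
import Fermat.Agent.S14.Wiring

set_option autoImplicit false

namespace Fermat.Agent.S14.Field

open ExtCitation ValuationSubring Fermat.Agent.S14.Wiring

/-- The field form of `Wiring.IsOmegaInvChar`.  All conditions are expressed through the fixing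
subgroup `G_L = L.fixingSubgroup` and `G_K = GK p`. -/
structure IsOmegaInvField (p : ℕ) [Fact p.Prime]
    (L : IntermediateField ℚ (AlgebraicClosure ℚ)) : Prop where
  finite : FiniteDimensional ℚ L
  galois : IsGalois ℚ L
  le_GK : L.fixingSubgroup ≤ GK p
  index : (L.fixingSubgroup.subgroupOf (GK p)).index = p
  unram : ∀ ℓ : ℕ, ℓ.Prime → ∀ A : ValuationSubring (AlgebraicClosure ℚ), A.LiesOverPrime ℓ →
    A.inertiaSubgroupIn ℚ ⊓ GK p ≤ L.fixingSubgroup
  split : ∀ A : ValuationSubring (AlgebraicClosure ℚ), A.LiesOverPrime p →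
    A.decompositionSubgroup ℚ ⊓ GK p ≤ L.fixingSubgroup
  conj : ∀ s t : GQ, t ∈ GK p → ∀ n : ℕ, (n : ZMod p) * (cycloChar p s : ZMod p) = 1 →
    s * t * s⁻¹ * (t ^ n)⁻¹ ∈ L.fixingSubgroup

/-- There is no everywhere unramified, `p`-split cyclic degree `p` extension `L` of `ℚ(ζ_p)`,
Galois over `ℚ`, of `Δ`-type `ω⁻¹`. -/
def NoOmegaInvField (p : ℕ) [Fact p.Prime] : Prop :=
  ¬ ∃ L : IntermediateField ℚ (AlgebraicClosure ℚ), IsOmegaInvField p L

/-- `G_K` is the fixing subgroup of `ℚ(ζ)` for any primitive `p`-th root of unity `ζ`. -/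
theorem GK_eq_fixingSubgroup {p : ℕ} [Fact p.Prime] {ζ : AlgebraicClosure ℚ}
    (hζ : IsPrimitiveRoot ζ p) :
    GK p = (IntermediateField.adjoin ℚ {ζ}).fixingSubgroup := by
  have hp : p.Prime := Fact.out
  have : NeZero p := ⟨hp.ne_zero⟩
  have hu : (hζ.isUnit hp.ne_zero).unit ∈ rootsOfUnity p (AlgebraicClosure ℚ) := by
    rw [mem_rootsOfUnity]
    ext
    simp [hζ.pow_eq_one]
  have hspec : ∀ σ : GQ, σ ζ = ζ ^ ((cycloChar p σ : (ZMod p)ˣ) : ZMod p).val := fun σ => by
    have := modularCyclotomicCharacter.spec (AlgebraicClosure ℚ)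
      (card_rootsOfUnity_eq_self p) (σ : AlgebraicClosure ℚ ≃+* AlgebraicClosure ℚ) hu
    rw [IsUnit.unit_spec] at this
    exact this
  have h1 : ((1 : (ZMod p)ˣ) : ZMod p).val = 1 := by
    have : Fact (1 < p) := ⟨hp.one_lt⟩
    simp [ZMod.val_one]
  ext σ
  rw [mem_GK_iff, IntermediateField.mem_fixingSubgroup_iff]
  constructor
  · intro h x hx
    have hfix : σ ζ = ζ := by rw [hspec σ, h, h1, pow_one]
    -- `σ` and `id` agree on the generator
    have : x ∈ IntermediateField.fixedField (Subgroup.zpowers σ) := by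
      have hle : IntermediateField.adjoin ℚ {ζ} ≤
          IntermediateField.fixedField (Subgroup.zpowers σ) := by
        rw [IntermediateField.adjoin_le_iff]
        rintro y rfl
        rw [SetLike.mem_coe, IntermediateField.mem_fixedField_iff]
        intro τ hτ
        obtain ⟨k, rfl⟩ := Subgroup.mem_zpowers_iff.1 hτ
        have hfix' : (σ : GQ) • y = y := hfix
        exact (MulAction.mem_stabilizer_iff.1
          (Subgroup.zpow_mem (MulAction.stabilizer GQ y) (MulAction.mem_stabilizer_iff.2 hfix') k))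
      exact hle hx
    exact (IntermediateField.mem_fixedField_iff _ x).1 this σ (Subgroup.mem_zpowers σ)
  · intro h
    have hfix : σ ζ = ζ := h ζ (IntermediateField.mem_adjoin_simple_self ℚ ζ)
    rw [hspec σ] at hfix
    have hlt : ((cycloChar p σ : (ZMod p)ˣ) : ZMod p).val < p := ZMod.val_lt _
    have h1' : ζ ^ ((cycloChar p σ : (ZMod p)ˣ) : ZMod p).val = ζ ^ 1 := by rw [hfix, pow_one]
    have hval := hζ.pow_inj hlt hp.one_lt h1'
    ext
    rw [Units.val_one]
    have := ZMod.natCast_zmod_val ((cycloChar p σ : (ZMod p)ˣ) : ZMod p)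
    rw [hval, Nat.cast_one] at this
    exact this.symm

section Kernel

variable {p : ℕ} [Fact p.Prime] {b : ↥(GK p) →* Multiplicative (ZMod p)}

/-- Powers in `Multiplicative (ZMod p)` only depend on the exponent modulo `p`. -/
lemma pow_eq_pow_of_cast_eq (x : Multiplicative (ZMod p)) {m n : ℕ}
    (h : (m : ZMod p) = (n : ZMod p)) : x ^ m = x ^ n := by
  apply Multiplicative.toAdd.injective
  rw [toAdd_pow, toAdd_pow, nsmul_eq_mul, nsmul_eq_mul, h]

/-- The kernel field of an `ω⁻¹`-character. -/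
theorem exists_field_of_char (hb : IsOmegaInvChar p b) :
    ∃ L : IntermediateField ℚ (AlgebraicClosure ℚ), IsOmegaInvField p L := by
  have hp : p.Prime := Fact.out
  have : NeZero p := ⟨hp.ne_zero⟩
  have : Algebra.IsAlgebraic ℚ (AlgebraicClosure ℚ) := AlgebraicClosure.isAlgebraic ℚ
  have : IsAlgClosure ℚ (AlgebraicClosure ℚ) := ⟨inferInstance, inferInstance⟩
  have : IsGalois ℚ (AlgebraicClosure ℚ) :=
    { to_isSeparable := inferInstance
      to_normal := IsAlgClosure.normal ℚ (AlgebraicClosure ℚ) }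
  set N : Subgroup GQ := b.ker.map (GK p).subtype with hN
  have hNle : N ≤ GK p := Subgroup.map_subtype_le _
  have hmemN : ∀ {σ : GQ}, σ ∈ N ↔ ∃ h : σ ∈ GK p, b ⟨σ, h⟩ = 1 := by
    intro σ
    rw [hN, Subgroup.mem_map]
    constructor
    · rintro ⟨t, ht, rfl⟩
      exact ⟨t.2, MonoidHom.mem_ker.1 ht⟩
    · rintro ⟨h, hb1⟩
      exact ⟨⟨σ, h⟩, MonoidHom.mem_ker.2 hb1, rfl⟩
  have hopen : IsOpen (N : Set GQ) := hb.open_ker
  have hclosed : IsClosed (N : Set GQ) := Subgroup.isClosed_of_isOpen N hopen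
  have hnormal : N.Normal := by
    refine ⟨fun n hn s => ?_⟩
    obtain ⟨h, hb1⟩ := hmemN.1 hn
    refine hmemN.2 ⟨conj_mem_GK s ⟨n, h⟩, ?_⟩
    rw [hb.conj s ⟨n, h⟩, hb1, one_pow]
  let L : IntermediateField ℚ (AlgebraicClosure ℚ) := IntermediateField.fixedField N
  have hfix : L.fixingSubgroup = N :=
    InfiniteGalois.fixingSubgroup_fixedField (⟨N, hclosed⟩ : ClosedSubgroup GQ)
  refine ⟨L, ?_, ?_, ?_, ?_, ?_, ?_, ?_⟩
  · refine (InfiniteGalois.isOpen_iff_finite L).1 ?_
    change IsOpen (L.fixingSubgroup : Set GQ)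
    rw [hfix]; exact hopen
  · refine (InfiniteGalois.normal_iff_isGalois L).1 ?_
    rw [hfix]; exact hnormal
  · rw [hfix]; exact hNle
  · rw [hfix]
    have h1 : N.subgroupOf (GK p) = b.ker :=
      Subgroup.comap_map_eq_self_of_injective (Subgroup.subtype_injective _) b.ker
    rw [h1, Subgroup.index_ker]
    -- `b` is onto a group of prime order
    have hcard : Nat.card (Multiplicative (ZMod p)) = p := by
      rw [Nat.card_congr Multiplicative.toAdd, Nat.card_zmod]
    have : Fact (Nat.card (Multiplicative (ZMod p))).Prime := ⟨by rw [hcard]; exact hp⟩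
    rcases Subgroup.eq_bot_or_eq_top_of_prime_card b.range with h | h
    · exfalso
      apply hb.ne_one
      ext t
      have : b t ∈ b.range := ⟨t, rfl⟩
      rw [h, Subgroup.mem_bot] at this
      rw [this]; rfl
    · rw [h, Nat.card_congr Subgroup.topEquiv.toEquiv, hcard]
  · intro ℓ hℓ A hA σ hσ
    rw [hfix]
    exact hmemN.2 ⟨hσ.2, hb.unram ℓ hℓ A hA ⟨σ, hσ.2⟩ hσ.1⟩
  · intro A hA σ hσ
    rw [hfix]
    exact hmemN.2 ⟨hσ.2, hb.split A hA ⟨σ, hσ.2⟩ hσ.1⟩
  · intro s t ht n hn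
    rw [hfix]
    have hmem : s * t * s⁻¹ * (t ^ n)⁻¹ ∈ GK p :=
      (GK p).mul_mem (conj_mem_GK s ⟨t, ht⟩) ((GK p).inv_mem ((GK p).pow_mem ht n))
    refine hmemN.2 ⟨hmem, ?_⟩
    have hprod : (⟨s * t * s⁻¹ * (t ^ n)⁻¹, hmem⟩ : ↥(GK p)) =
        ⟨s * t * s⁻¹, conj_mem_GK s ⟨t, ht⟩⟩ * (⟨t, ht⟩ ^ n)⁻¹ := rfl
    rw [hprod, map_mul, map_inv, map_pow, hb.conj s ⟨t, ht⟩]
    have hexp : ((((cycloChar p s)⁻¹ : (ZMod p)ˣ) : ZMod p).val : ZMod p) = (n : ZMod p) := by
      rw [ZMod.natCast_zmod_val]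
      have h1 : (((cycloChar p s)⁻¹ : (ZMod p)ˣ) : ZMod p) * (cycloChar p s : ZMod p) = 1 := by
        rw [← Units.val_mul, inv_mul_cancel, Units.val_one]
      have hunit : IsUnit ((cycloChar p s : (ZMod p)ˣ) : ZMod p) := Units.isUnit _
      exact hunit.mul_left_injective (h1.trans hn.symm)
    rw [pow_eq_pow_of_cast_eq _ hexp, mul_inv_cancel]

end Kernel

/-- The field form of the hypothesis implies the character form. -/
theorem noOmegaInvClassField_of_noOmegaInvField {p : ℕ} [Fact p.Prime] (H : NoOmegaInvField p) :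
    NoOmegaInvClassField p := fun ⟨_, hb⟩ => H (exists_field_of_char hb)

/-- **S14a, field form.** -/
theorem result_of_field {p : ℕ} [Fact p.Prime] (h3 : 3 ≤ p) (H : NoOmegaInvField p) :
    ExtCitation.ExtVanishingCts p :=
  result_of h3 (noOmegaInvClassField_of_noOmegaInvField H)

end Fermat.Agent.S14.Field
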