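import Fermat.Agent.S14.Field
import Fermat.Agent.CFT.C7.TrivialInertia
import Fermat.Agent.CFT.Idele.Rep
import Fermat.Prelude.Def_ClassGroup_GaloisAction

/-!
# S14b-(D): the dictionary from `S14.Field.IsOmegaInvField` to number fields

`L ⊂ ℚ̄` with `hL : IsOmegaInvField p L` (prelude vocabulary: fixing subgroups, valuation subrings
of `ℚ̄`, the cyclotomic character of `G_ℚ`).  We translate into statements about the number fields
`K = ℚ(ζ_p) ⊆ L`:

* `exists_smul_eq_of_center_eq` : valuation subrings of a Galois extension `Ω/ℚ` with the same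
  centre on the integers of an intermediate field `L` are conjugate under `L.fixingSubgroup`;
* `isUnramifiedOutside` **(a)** : `L.IsUnramifiedOutside {p}` (prelude sense);
* `finrank_adjoin_eq` **(b)** : `[L : ℚ(ζ)] = p`;
* `eq_one_of_stabilizes` **(c)** : trivial stabilisers in `Gal(L/ℚ(ζ))` of the primes above `p`;
* `conj_eq_pow` **(d)** : `σ h σ⁻¹ = h ^ n` for `n χ(σ) = 1`;
* `OmegaInvData`, `exists_omegaInvData` : everything packaged for ABSTRACT number fields.
-/

set_option autoImplicit false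

open scoped Pointwise

namespace Fermat.Agent.S14.FieldDict

open ExtCitation ValuationSubring NumberField Fermat.Agent.S14.Wiring Fermat.Agent.S14.Field
  Fermat.Agent.CFT.Idele JacobiSumStickelberger Fermat.Agent.CFT.LocalBridge IsDedekindDomain
  Fermat.Agent.CFT.C7 Fermat.Agent.CFT.C3.ClassGen

local notation "Qbar" => AlgebraicClosure ℚ

section RelConj

variable {Ω : Type*} [Field Ω] [Algebra ℚ Ω] [IsGalois ℚ Ω]

/-- **Relative conjugacy.** Two valuation subrings of a Galois extension `Ω/ℚ` over `q` with the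
same centre on the integers of an intermediate field `L` are conjugate under
`L.fixingSubgroup`. -/
theorem exists_smul_eq_of_center_eq (L : IntermediateField ℚ Ω) {q : ℕ} (hq : q.Prime)
    {A₁ A₂ : ValuationSubring Ω} (h1 : A₁.LiesOverPrime q) (h2 : A₂.LiesOverPrime q)
    (h : ∀ y : Ω, y ∈ L → IsIntegral ℤ y → (y ∈ A₁.nonunits ↔ y ∈ A₂.nonunits)) :
    ∃ τ : Ω ≃ₐ[ℚ] Ω, τ ∈ L.fixingSubgroup ∧ τ • A₁ = A₂ := by
  let _ : TopologicalSpace (integralClosure ℤ Ω) := ⊥
  have : DiscreteTopology (integralClosure ℤ Ω) := ⟨rfl⟩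
  have : IsGalois ↥L Ω := inferInstance
  have : ContinuousSMul (Ω ≃ₐ[↥L] Ω) (integralClosure ℤ Ω) := by
    rw [continuousSMul_iff_stabilizer_isOpen]
    intro b
    have h := stabilizer_isOpen_of_isIntegral (K := ↥L) (b : Ω)
    convert h using 1
    ext g
    simp only [SetLike.mem_coe, MulAction.mem_stabilizer_iff]
    exact Subtype.ext_iff
  have : Algebra.IsInvariant (FixedPoints.subalgebra ℤ (integralClosure ℤ Ω) (Ω ≃ₐ[↥L] Ω))
      (integralClosure ℤ Ω) (Ω ≃ₐ[↥L] Ω) := ⟨fun b hb => ⟨⟨b, hb⟩, rfl⟩⟩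
  have hun : (center A₁).under
        (FixedPoints.subalgebra ℤ (integralClosure ℤ Ω) (Ω ≃ₐ[↥L] Ω)) =
      (center A₂).under
        (FixedPoints.subalgebra ℤ (integralClosure ℤ Ω) (Ω ≃ₐ[↥L] Ω)) := by
    ext ⟨b, hb⟩
    rw [Ideal.under_def, Ideal.under_def, Ideal.mem_comap, Ideal.mem_comap]
    change b ∈ center A₁ ↔ b ∈ center A₂
    rw [mem_center_iff, mem_center_iff]
    refine h _ ?_ b.2
    -- `b` is fixed by `Gal(Ω/L)` so lies in `L`
    have hfix : ∀ g : Ω ≃ₐ[↥L] Ω, g (b : Ω) = b := fun g =>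
      congrArg (fun z : integralClosure ℤ Ω => (z : Ω)) (hb g)
    obtain ⟨r, hr⟩ := (InfiniteGalois.mem_range_algebraMap_iff_fixed _).mpr hfix
    rw [← hr]
    exact r.2
  obtain ⟨σ, hσ⟩ := Algebra.IsInvariant.exists_smul_of_under_eq_of_profinite
    (A := FixedPoints.subalgebra ℤ (integralClosure ℤ Ω) (Ω ≃ₐ[↥L] Ω))
    (G := Ω ≃ₐ[↥L] Ω) (center A₁) (center A₂) hun
  refine ⟨σ.restrictScalars ℚ, ?_, ?_⟩
  · rw [IntermediateField.mem_fixingSubgroup_iff]
    intro x hx
    exact σ.commutes ⟨x, hx⟩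
  · have hσ' : center A₂ = (σ.restrictScalars ℚ) • center A₁ := by
      rw [hσ]
      rfl
    rw [← center_smul] at hσ'
    have hσA : ((σ.restrictScalars ℚ) • A₁).LiesOverPrime q := by
      rw [ValuationSubring.LiesOverPrime, smul_nonunits_iff, map_natCast]; exact h1
    have key : ∀ y : Ω, IsIntegral ℤ y →
        (y ∈ A₂.nonunits ↔ y ∈ ((σ.restrictScalars ℚ) • A₁).nonunits) := by
      intro y hy
      have := congrArg (fun I : Ideal (integralClosure ℤ Ω) =>
        (⟨y, hy⟩ : integralClosure ℤ Ω) ∈ I) hσ'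
      simp only [mem_center_iff, eq_iff_iff] at this
      exact this
    apply le_antisymm
    · exact le_of_integral_nonunits_le hq hσA fun y hy h => (key y hy).mp h
    · exact le_of_integral_nonunits_le hq h2 fun y hy h => (key y hy).mpr h

end RelConj

variable {p : ℕ} [Fact p.Prime]

section CycloChar

/-- The defining property of the prelude's mod `p` cyclotomic character. -/
theorem cycloChar_spec {ζ : Qbar} (hζ : ζ ^ p = 1) (σ : GQ) :
    σ ζ = ζ ^ ((cycloChar p σ : (ZMod p)ˣ) : ZMod p).val := by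
  have hp : p.Prime := Fact.out
  have hunit : IsUnit ζ := IsUnit.of_pow_eq_one hζ hp.ne_zero
  have hu : hunit.unit ∈ rootsOfUnity p Qbar := by
    rw [mem_rootsOfUnity]
    ext
    simp [hζ]
  have := modularCyclotomicCharacter.spec Qbar
    (card_rootsOfUnity_eq_self p) (σ : Qbar ≃+* Qbar) hu
  rw [IsUnit.unit_spec] at this
  exact this

/-- The cyclotomic character is determined by the action on one primitive root. -/
theorem cycloChar_eq_of_apply {ζ : Qbar} (hζ : IsPrimitiveRoot ζ p) (σ : GQ) (d : (ZMod p)ˣ)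
    (h : σ ζ = ζ ^ (d : ZMod p).val) : cycloChar p σ = d := by
  have hp : p.Prime := Fact.out
  rw [cycloChar_spec hζ.pow_eq_one σ] at h
  have h1 : ((cycloChar p σ : (ZMod p)ˣ) : ZMod p).val < p := ZMod.val_lt _
  have h2 : (d : ZMod p).val < p := ZMod.val_lt _
  have hval := hζ.pow_inj h1 h2 h
  ext
  exact ZMod.val_injective p hval

theorem mem_GK_iff_apply {ζ : Qbar} (hζ : IsPrimitiveRoot ζ p) (σ : GQ) :
    σ ∈ GK p ↔ σ ζ = ζ := by
  have hp : p.Prime := Fact.out
  have : Fact (1 < p) := ⟨hp.one_lt⟩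
  rw [mem_GK_iff]
  constructor
  · intro h
    rw [cycloChar_spec hζ.pow_eq_one σ, h, Units.val_one, ZMod.val_one, pow_one]
  · intro h
    apply cycloChar_eq_of_apply hζ
    rw [h, Units.val_one, ZMod.val_one, pow_one]

end CycloChar

/-- The prelude's `cycloGalEquiv` is the mod `p` cyclotomic character of `K = ℚ(ζ_p)`. -/
theorem cycloGalEquiv_spec (K : Type*) [Field K] [NumberField K] [IsCyclotomicExtension {p} ℚ K]
    (τ : K ≃ₐ[ℚ] K) {ζ : K} (hζ : ζ ^ p = 1) :
    τ ζ = ζ ^ ((cycloGalEquiv p K τ : (ZMod p)ˣ) : ZMod p).val := by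
  have hμ := IsCyclotomicExtension.zeta_spec p ℚ K
  have h1 : cycloGalEquiv p K τ = hμ.autToPow ℚ τ := rfl
  obtain ⟨i, -, rfl⟩ := hμ.eq_pow_of_pow_eq_one hζ
  rw [h1, map_pow, ← hμ.autToPow_spec ℚ τ, ← pow_mul, ← pow_mul, mul_comm]


section Unram

/-- Inertia at a prime `q ≠ p` acts trivially on `ℚ(ζ_p)`. -/
theorem inertiaSubgroupIn_le_GK {q : ℕ} (hq : q.Prime) (hqp : q ≠ p)
    (A : ValuationSubring Qbar) (hA : A.LiesOverPrime q) : A.inertiaSubgroupIn ℚ ≤ GK p := by
  have hp : p.Prime := Fact.out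
  have : NeZero p := ⟨hp.ne_zero⟩
  intro σ hσ
  obtain ⟨ζ, hζ⟩ := HasEnoughRootsOfUnity.exists_primitiveRoot Qbar p
  rw [mem_GK_iff_apply hζ]
  have hcop : Nat.Coprime p q := (Nat.coprime_primes hp hq).mpr (Ne.symm hqp)
  exact Fermat.Agent.CFT.C7.KummerUnram.inertia_fix_of_pow_eq_one A hσ
    (Fermat.Agent.CFT.C7.KummerUnram.valuation_natCast_eq_one_of_coprime A hA hcop) hζ.pow_eq_one

/-- **(a)** An `ω⁻¹`-field is unramified outside `p` in the prelude's sense. -/
theorem isUnramifiedOutside {L : IntermediateField ℚ Qbar} (hL : IsOmegaInvField p L) :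
    L.IsUnramifiedOutside {pPrime p} := by
  refine ⟨hL.finite, fun q hq A hA => ?_⟩
  have hqp : (q : ℕ) ≠ p := by
    intro h
    apply hq
    rw [Finset.mem_singleton]
    exact Subtype.ext h
  intro σ hσ
  exact hL.unram q q.2 A hA ⟨hσ, inertiaSubgroupIn_le_GK q.2 hqp A hA hσ⟩

end Unram

section Res

variable (L : IntermediateField ℚ Qbar) [IsGalois ℚ L]

/-- Restriction `G_ℚ → Gal(L/ℚ)`. -/
noncomputable def resL : GQ →* (↥L ≃ₐ[ℚ] ↥L) := AlgEquiv.restrictNormalHom ↥L

theorem resL_apply (s : GQ) (x : ↥L) : ((resL L s x : ↥L) : Qbar) = s (x : Qbar) :=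
  AlgEquiv.restrictNormal_commutes s ↥L x

theorem resL_surjective : Function.Surjective (resL L) :=
  AlgEquiv.restrictNormalHom_surjective Qbar

theorem resL_eq_one_iff (s : GQ) : resL L s = 1 ↔ s ∈ L.fixingSubgroup := by
  rw [IntermediateField.mem_fixingSubgroup_iff]
  constructor
  · intro h x hx
    have := resL_apply L s ⟨x, hx⟩
    rw [h] at this
    exact this.symm
  · intro h
    ext x
    rw [resL_apply]
    exact h x x.2

end Res

section Adjoin

variable {F : Type*} [Field F] [Algebra ℚ F]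

/-- An automorphism fixing `ζ` fixes `ℚ(ζ)`. -/
theorem mem_fixingSubgroup_adjoin_simple_iff (ζ : F) (τ : F ≃ₐ[ℚ] F) :
    τ ∈ (IntermediateField.adjoin ℚ {ζ}).fixingSubgroup ↔ τ ζ = ζ := by
  rw [IntermediateField.mem_fixingSubgroup_iff]
  constructor
  · intro h
    exact h ζ (IntermediateField.mem_adjoin_simple_self ℚ ζ)
  · intro hfix x hx
    have hle : IntermediateField.adjoin ℚ {ζ} ≤
        IntermediateField.fixedField (Subgroup.zpowers τ) := by
      rw [IntermediateField.adjoin_le_iff]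
      rintro y rfl
      rw [SetLike.mem_coe, IntermediateField.mem_fixedField_iff]
      intro ρ hρ
      obtain ⟨k, rfl⟩ := Subgroup.mem_zpowers_iff.1 hρ
      have hfix' : τ • y = y := hfix
      exact (MulAction.mem_stabilizer_iff.1
        (Subgroup.zpow_mem (MulAction.stabilizer (F ≃ₐ[ℚ] F) y)
          (MulAction.mem_stabilizer_iff.2 hfix') k))
    exact (IntermediateField.mem_fixedField_iff _ x).1 (hle hx) τ (Subgroup.mem_zpowers τ)

end Adjoin

section Tower

variable {L : IntermediateField ℚ Qbar}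

/-- The `p`-th roots of unity lie in an `ω⁻¹`-field. -/
theorem mem_of_pow_eq_one (hL : IsOmegaInvField p L) {ζ : Qbar} (hζ : ζ ^ p = 1) : ζ ∈ L := by
  have hp : p.Prime := Fact.out
  have : NeZero p := ⟨hp.ne_zero⟩
  obtain ⟨μ, hμ⟩ := HasEnoughRootsOfUnity.exists_primitiveRoot Qbar p
  have hμL : μ ∈ L := by
    rw [← InfiniteGalois.fixedField_fixingSubgroup L, IntermediateField.mem_fixedField_iff]
    intro σ hσ
    exact (mem_GK_iff_apply hμ σ).mp (hL.le_GK hσ)
  obtain ⟨i, -, rfl⟩ := hμ.eq_pow_of_pow_eq_one hζ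
  exact pow_mem hμL i


variable [IsGalois ℚ L]

theorem resL_mem_fixingSubgroup_iff {ζ : ↥L} (hζ : IsPrimitiveRoot ζ p) (s : GQ) :
    resL L s ∈ (IntermediateField.adjoin ℚ {ζ}).fixingSubgroup ↔ s ∈ GK p := by
  have hζ' : IsPrimitiveRoot (ζ : Qbar) p := hζ.map_of_injective (f := L.val) L.val.injective
  rw [mem_fixingSubgroup_adjoin_simple_iff, mem_GK_iff_apply hζ', ← resL_apply, Subtype.ext_iff]

theorem finrank_adjoin_eq (hL : IsOmegaInvField p L) {ζ : ↥L} (hζ : IsPrimitiveRoot ζ p) :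
    Module.finrank ↥(IntermediateField.adjoin ℚ {ζ}) ↥L = p := by
  have hp : p.Prime := Fact.out
  have : NeZero p := ⟨hp.ne_zero⟩
  have hζ' : IsPrimitiveRoot (ζ : Qbar) p := hζ.map_of_injective (f := L.val) L.val.injective
  have hirr : Irreducible (Polynomial.cyclotomic p ℚ) :=
    Polynomial.cyclotomic.irreducible_rat hp.pos
  -- degrees of the two copies of `ℚ(ζ)`
  have hc1 : IsCyclotomicExtension {p} ℚ ↥(IntermediateField.adjoin ℚ {ζ}) :=
    hζ.intermediateField_adjoin_isCyclotomicExtension ℚ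
  have hc2 : IsCyclotomicExtension {p} ℚ ↥(IntermediateField.adjoin ℚ {(ζ : Qbar)}) :=
    hζ'.intermediateField_adjoin_isCyclotomicExtension ℚ
  have hd1 : Module.finrank ℚ ↥(IntermediateField.adjoin ℚ {ζ}) = p.totient :=
    IsCyclotomicExtension.finrank _ hirr
  have hd2 : Module.finrank ℚ ↥(IntermediateField.adjoin ℚ {(ζ : Qbar)}) = p.totient :=
    IsCyclotomicExtension.finrank _ hirr
  have hi1 : Module.finrank ℚ ↥L = L.fixingSubgroup.index :=
    IntermediateField.finrank_eq_fixingSubgroup_index Qbar L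
  have hi2 : Module.finrank ℚ ↥(IntermediateField.adjoin ℚ {(ζ : Qbar)}) = (GK p).index := by
    rw [GK_eq_fixingSubgroup hζ']
    exact IntermediateField.finrank_eq_fixingSubgroup_index Qbar _
  have hrel : L.fixingSubgroup.relIndex (GK p) * (GK p).index = L.fixingSubgroup.index :=
    Subgroup.relIndex_mul_index hL.le_GK
  have hindex : L.fixingSubgroup.relIndex (GK p) = p := hL.index
  have htower := Module.finrank_mul_finrank ℚ ↥(IntermediateField.adjoin ℚ {ζ}) ↥L
  rw [hd1, hi1, ← hrel, hindex, ← hi2, hd2] at htower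
  have hpos : 0 < p.totient := Nat.totient_pos.mpr hp.pos
  rw [mul_comm p] at htower
  exact Nat.eq_of_mul_eq_mul_left hpos htower


/-- **(d), concrete form.** `σ ∈ Gal(L/ℚ)` acting on `μ_p` through `d`, `h ∈ Gal(L/ℚ(ζ))`,
`n d = 1` in `ZMod p`: then `σ h σ⁻¹ = h ^ n`. -/
theorem conj_eq_pow (hL : IsOmegaInvField p L) {ζ : ↥L} (hζ : IsPrimitiveRoot ζ p)
    (σ : ↥L ≃ₐ[ℚ] ↥L) (d : (ZMod p)ˣ) (hd : σ ζ = ζ ^ (d : ZMod p).val)
    (h : ↥L ≃ₐ[ℚ] ↥L) (hh : h ζ = ζ) (n : ℕ) (hn : (n : ZMod p) * (d : ZMod p) = 1) :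
    σ * h * σ⁻¹ = h ^ n := by
  have hζ' : IsPrimitiveRoot (ζ : Qbar) p := hζ.map_of_injective (f := L.val) L.val.injective
  obtain ⟨s, rfl⟩ := resL_surjective L σ
  obtain ⟨t, rfl⟩ := resL_surjective L h
  have ht : t ∈ GK p := by
    rw [mem_GK_iff_apply hζ', ← resL_apply, hh]
  have hs : cycloChar p s = d := by
    apply cycloChar_eq_of_apply hζ'
    rw [← resL_apply, hd]
    rfl
  have hmem := hL.conj s t ht n (by rw [hs]; exact hn)
  rw [← resL_eq_one_iff, map_mul, map_mul, map_mul, map_inv, map_inv, map_pow,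
    mul_inv_eq_one] at hmem
  exact hmem


variable [NumberField L]

/-- **(c), concrete form.** An automorphism of `L` fixing `ζ` and stabilising a prime `P` above
`p` is trivial. -/
theorem eq_one_of_stabilizes (hL : IsOmegaInvField p L) {ζ : ↥L} (hζ : IsPrimitiveRoot ζ p)
    (P : Ideal (𝓞 ↥L)) [hP : P.IsPrime] (hpP : ((p : ℕ) : 𝓞 ↥L) ∈ P) (σ : ↥L ≃ₐ[ℚ] ↥L)
    (hσζ : σ ζ = ζ)
    (hσP : ∀ x y : 𝓞 ↥L, σ (x : ↥L) = (y : ↥L) → (x ∈ P ↔ y ∈ P)) : σ = 1 := by
  have hp : p.Prime := Fact.out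
  have hζ' : IsPrimitiveRoot (ζ : Qbar) p := hζ.map_of_injective (f := L.val) L.val.injective
  have hp0 : (((p : ℕ) : 𝓞 ↥L)) ≠ 0 := by exact_mod_cast hp.ne_zero
  have hP0 : P ≠ ⊥ := by
    rintro rfl
    exact hp0 ((Ideal.mem_bot).mp hpP)
  set w : HeightOneSpectrum (𝓞 ↥L) := ⟨P, hP, hP0⟩ with hw
  -- a valuation subring of `ℚ̄` with centre `P`
  obtain ⟨A, hA, hAw⟩ := PlaceDict.exists_placeOf_eq (Ω := Qbar) (L.val : ↥L →+* Qbar) w
  have hnat : natPrime ↥L w = pPrime p := mem_iff_eq_natPrime.mp (by exact hpP)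
  have hA' : A.LiesOverPrime p := by
    rw [hnat] at hA
    exact hA
  have hcenter : ∀ x : 𝓞 ↥L, x ∈ P ↔ ((algebraMap (𝓞 ↥L) ↥L x : ↥L) : Qbar) ∈ A.nonunits := by
    intro x
    have := PlaceDict.mem_placeOf_iff (L.val : ↥L →+* Qbar) (natPrime ↥L w).2.ne_zero hA x
    rw [hAw] at this
    exact this
  -- lift `σ`
  obtain ⟨s, rfl⟩ := resL_surjective L σ
  have hs : s ∈ GK p := by
    rw [mem_GK_iff_apply hζ', ← resL_apply, hσζ]
  -- `s • A` has the same centre on `L`
  have hsA : (s • A).LiesOverPrime p := by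
    rw [ValuationSubring.LiesOverPrime, smul_nonunits_iff, map_natCast]; exact hA'
  have hsame : ∀ y : Qbar, y ∈ L → IsIntegral ℤ y → (y ∈ (s • A).nonunits ↔ y ∈ A.nonunits) := by
    intro y hyL hy
    rw [smul_nonunits_iff]
    -- `x`: `y` as an integer of `L`;  `x'`: `s⁻¹ y`
    have hyint : IsIntegral ℤ (⟨y, hyL⟩ : ↥L) := by
      have : IsIntegral ℤ (L.val ⟨y, hyL⟩) := hy
      exact (isIntegral_algHom_iff (L.val.restrictScalars ℤ) L.val.injective).mp this
    set x : 𝓞 ↥L := ⟨⟨y, hyL⟩, hyint⟩ with hx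
    set x' : 𝓞 ↥L := RingOfIntegers.mapRingEquiv ((resL L s⁻¹ : ↥L ≃ₐ[ℚ] ↥L) : ↥L ≃+* ↥L) x with hx'
    have h1 : ((algebraMap (𝓞 ↥L) ↥L x' : ↥L) : Qbar) = s⁻¹ y := by
      have h0 : algebraMap (𝓞 ↥L) ↥L x' = (resL L s⁻¹) (algebraMap (𝓞 ↥L) ↥L x) := rfl
      rw [h0]
      exact resL_apply L s⁻¹ ⟨y, hyL⟩
    have h2 : ((algebraMap (𝓞 ↥L) ↥L x : ↥L) : Qbar) = y := rfl
    have h3 : (resL L s) (algebraMap (𝓞 ↥L) ↥L x') = algebraMap (𝓞 ↥L) ↥L x := by
      apply Subtype.ext
      rw [resL_apply, h1, h2]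
      exact AlgEquiv.apply_symm_apply s y
    rw [← h1, ← h2, ← hcenter, ← hcenter]
    exact hσP x' x h3
  obtain ⟨τ, hτL, hτA⟩ := exists_smul_eq_of_center_eq L hp hsA hA' hsame
  have hdec : τ * s ∈ A.decompositionSubgroup ℚ := by
    rw [MulAction.mem_stabilizer_iff, mul_smul]
    exact hτA
  have hGK : τ * s ∈ GK p := (GK p).mul_mem (hL.le_GK hτL) hs
  have hmem : τ * s ∈ L.fixingSubgroup := hL.split A hA' ⟨hdec, hGK⟩
  have hsL : s ∈ L.fixingSubgroup := by
    have := L.fixingSubgroup.mul_mem (L.fixingSubgroup.inv_mem hτL) hmem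
    rwa [inv_mul_cancel_left] at this
  exact (resL_eq_one_iff L s).mpr hsL


end Tower

/-! ### The package for abstract number fields -/

/-- The number-field content of `IsOmegaInvField`, for abstract number fields `K ⊆ L` with
`K = ℚ(ζ_p)`. -/
structure OmegaInvData (p : ℕ) [Fact p.Prime] (K L : Type) [Field K] [Field L] [NumberField K]
    [NumberField L] [Algebra K L] [IsCyclotomicExtension {p} ℚ K] : Prop where
  galoisQ : IsGalois ℚ L
  galois : IsGalois K L
  finrank_eq : Module.finrank K L = p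
  /-- (a) `L/ℚ` is unramified outside `p`, discriminant form. -/
  unram : ∀ q : Nat.Primes, (q : ℕ) ≠ p → ¬ (((q : ℕ) : ℤ) ∣ NumberField.discr L)
  /-- (a') `L/ℚ` is unramified outside `p`, trivial inertia form. -/
  inertia : ∀ q : Nat.Primes, (q : ℕ) ≠ p → ∀ w : Ideal (𝓞 L), w.IsPrime → ((q : ℕ) : 𝓞 L) ∈ w →
    ∀ σ : L ≃ₐ[ℚ] L, (∀ x : 𝓞 L, ∃ y ∈ w, σ (x : L) - (x : L) = (y : L)) → σ = 1
  /-- (c) the primes of `L` above `p` have trivial stabiliser in `Gal(L/K)`. -/
  split : ∀ P : Ideal (𝓞 L), P.IsPrime → ((p : ℕ) : 𝓞 L) ∈ P → ∀ σ : L ≃ₐ[K] L, σ • P = P → σ = 1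
  /-- (d) `Gal(K/ℚ)` acts on `Gal(L/K)` through `ω⁻¹`. -/
  conj : ∀ (σ : L ≃ₐ[ℚ] L) (τ : K ≃ₐ[ℚ] K),
    (∀ x : K, σ (algebraMap K L x) = algebraMap K L (τ x)) → ∀ (h : L ≃ₐ[K] L) (n : ℕ),
    (n : ZMod p) * ((cycloGalEquiv p K τ : (ZMod p)ˣ) : ZMod p) = 1 →
    σ * galHom K L h * σ⁻¹ = galHom K L (h ^ n)

/-- **S14b-(D).** The prelude datum `IsOmegaInvField p L` yields abstract number fields
`K = ℚ(ζ_p) ⊆ L'` with all the properties of `OmegaInvData`. -/
theorem exists_omegaInvData {L : IntermediateField ℚ Qbar} (hL : IsOmegaInvField p L) :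
    ∃ (K L' : Type) (_ : Field K) (_ : Field L') (_ : NumberField K) (_ : NumberField L')
      (_ : Algebra K L') (_ : IsCyclotomicExtension {p} ℚ K), OmegaInvData p K L' := by
  have hp : p.Prime := Fact.out
  have : NeZero p := ⟨hp.ne_zero⟩
  have hfin := hL.finite
  have hgal := hL.galois
  have hNF : NumberField ↥L := PlaceDict.numberField_of_finiteDimensional L
  obtain ⟨μ, hμ⟩ := HasEnoughRootsOfUnity.exists_primitiveRoot Qbar p
  set ζ : ↥L := ⟨μ, mem_of_pow_eq_one hL hμ.pow_eq_one⟩ with hζdef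
  have hζ : IsPrimitiveRoot ζ p := by
    rw [← IsPrimitiveRoot.coe_submonoidClass_iff]
    exact hμ
  have hcyc : IsCyclotomicExtension {p} ℚ ↥(IntermediateField.adjoin ℚ {ζ}) :=
    hζ.intermediateField_adjoin_isCyclotomicExtension ℚ
  have hunr := isUnramifiedOutside hL
  have hnotin : ∀ q : Nat.Primes, (q : ℕ) ≠ p → q ∉ ({pPrime p} : Finset Nat.Primes) := by
    intro q hq hmem
    rw [Finset.mem_singleton] at hmem
    exact hq (by rw [hmem]; rfl)
  -- `ζ` as an element of `K`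
  set ζK : ↥(IntermediateField.adjoin ℚ {ζ}) :=
    ⟨ζ, IntermediateField.mem_adjoin_simple_self ℚ ζ⟩ with hζK
  have hζKpow : ζK ^ p = 1 := Subtype.ext hζ.pow_eq_one
  refine ⟨↥(IntermediateField.adjoin ℚ {ζ}), ↥L, inferInstance, inferInstance, inferInstance, hNF,
    inferInstance, hcyc, ?_⟩
  refine
    { galoisQ := hgal
      galois := inferInstance
      finrank_eq := finrank_adjoin_eq hL hζ
      unram := fun q hq => UnramDict.not_dvd_discr L hunr q (hnotin q hq)
      inertia := fun q hq w hw hqw σ hσ =>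
        haveI := hw
        TrivialInertia.eq_one_of_forall_sub_mem L hunr q (hnotin q hq) w hqw σ hσ
      split := ?_
      conj := ?_ }
  · intro P hP hpP σ hσP
    have := hP
    have h1 : galHom ↥(IntermediateField.adjoin ℚ {ζ}) ↥L σ = 1 := by
      refine eq_one_of_stabilizes hL hζ P hpP _ ?_ ?_
      · exact σ.commutes ζK
      · intro x y hxy
        have hy : y = σ • x := by
          apply RingOfIntegers.ext
          rw [← hxy]
          rfl
        rw [hy]
        conv_rhs => rw [← hσP]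
        exact (Ideal.smul_mem_pointwise_smul_iff).symm
    exact galHom_injective _ _ (h1.trans (map_one _).symm)
  · intro σ τ hστ h n hn
    rw [map_pow]
    refine conj_eq_pow hL hζ σ (cycloGalEquiv p ↥(IntermediateField.adjoin ℚ {ζ}) τ) ?_
      (galHom _ _ h) ?_ n hn
    · have h1 := hστ ζK
      have h2 := cycloGalEquiv_spec ↥(IntermediateField.adjoin ℚ {ζ}) τ hζKpow
      rw [h2, map_pow] at h1
      exact h1
    · exact h.commutes ζK

end Fermat.Agent.S14.FieldDict
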