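/-
S14b, abstract step (helper6): a `Δ`-equivariant nonzero functional `A → 𝔽_p(ω⁻¹)` on an
`𝔽_p[(ℤ/p)ˣ]`-module produces a nonzero `ω^(p-2)`-eigenvector (prelude vocabulary
`Stickelberger.IsOmegaEigenvector`), via the eigen-projector `∑_d d • ρ d`.
-/
import Mathlib
import Fermat.Prelude.Def_Stickelberger_Basic

set_option autoImplicit false

namespace Fermat.Agent.S14.EigenProj

open _root_.Stickelberger

variable {p : ℕ} [Fact p.Prime] {A : Type*} [AddCommGroup A] [Module (ZMod p) A]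

/-- `d ^ (p - 2) = d⁻¹` for units of `ZMod p`. -/
lemma coe_pow_sub_two (d : (ZMod p)ˣ) :
    ((d : (ZMod p)ˣ) : ZMod p) ^ (p - 2) = ((d⁻¹ : (ZMod p)ˣ) : ZMod p) := by
  have hp : p.Prime := Fact.out
  have h2 : 2 ≤ p := hp.two_le
  have h1 : ((d : (ZMod p)ˣ) : ZMod p) ^ (p - 1) = 1 :=
    ZMod.pow_card_sub_one_eq_one d.ne_zero
  have h3 : ((d : (ZMod p)ˣ) : ZMod p) ^ (p - 2) * (d : ZMod p) = 1 := by
    rw [← pow_succ]
    have : p - 2 + 1 = p - 1 := by omega
    rw [this, h1]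
  have h4 : ((d⁻¹ : (ZMod p)ˣ) : ZMod p) * (d : ZMod p) = 1 := by
    rw [← Units.val_mul, inv_mul_cancel, Units.val_one]
  exact d.isUnit.mul_left_injective (h3.trans h4.symm)

/-- The (unnormalised) projector onto the `ω⁻¹`-eigenspace. -/
noncomputable def proj (ρ : (ZMod p)ˣ →* Module.End (ZMod p) A) (y : A) : A :=
  ∑ d : (ZMod p)ˣ, ((d : (ZMod p)ˣ) : ZMod p) • ρ d y

lemma rho_proj (ρ : (ZMod p)ˣ →* Module.End (ZMod p) A) (e : (ZMod p)ˣ) (y : A) :
    ρ e (proj ρ y) = ((e⁻¹ : (ZMod p)ˣ) : ZMod p) • proj ρ y := by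
  unfold proj
  rw [map_sum, Finset.smul_sum]
  refine Fintype.sum_equiv (Equiv.mulLeft e) _ _ fun d => ?_
  rw [Equiv.coe_mulLeft, map_smul, ← Module.End.mul_apply, ← map_mul, smul_smul]
  congr 1
  rw [Units.val_mul, ← mul_assoc, ← Units.val_mul, inv_mul_cancel, Units.val_one, one_mul]

/-- The projected vector is an `ω^(p-2)`-eigenvector. -/
lemma isOmegaEigenvector_proj (ρ : (ZMod p)ˣ →* Module.End (ZMod p) A) (y : A) :
    IsOmegaEigenvector ρ (p - 2) (proj ρ y) := fun d => by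
  rw [rho_proj, coe_pow_sub_two]

/-- **S14b, abstract step.** -/
theorem exists_omega_eigenvector (ρ : (ZMod p)ˣ →* Module.End (ZMod p) A) (f : A →+ ZMod p)
    (hf : ∀ (d : (ZMod p)ˣ) (a : A), f (ρ d a) = ((d⁻¹ : (ZMod p)ˣ) : ZMod p) * f a)
    (hne : ∃ a, f a ≠ 0) :
    ∃ a : A, a ≠ 0 ∧ IsOmegaEigenvector ρ (p - 2) a := by
  have hp : p.Prime := Fact.out
  obtain ⟨y, hy⟩ := hne
  refine ⟨proj ρ y, fun h0 => ?_, isOmegaEigenvector_proj ρ y⟩
  have hsum : f (proj ρ y) = (Fintype.card (ZMod p)ˣ : ZMod p) * f y := by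
    unfold proj
    rw [map_sum]
    have : ∀ d : (ZMod p)ˣ, f (((d : (ZMod p)ˣ) : ZMod p) • ρ d y) = f y := fun d => by
      have h1 : f (((d : (ZMod p)ˣ) : ZMod p) • ρ d y) =
          ((d : (ZMod p)ˣ) : ZMod p) * f (ρ d y) := by
        -- `f` is additive, hence `ZMod p`-linear
        have hlin : ∀ (c : ZMod p) (a : A), f (c • a) = c * f a := by
          intro c a
          obtain ⟨n, rfl⟩ := ZMod.natCast_zmod_surjective c
          rw [Nat.cast_smul_eq_nsmul, map_nsmul, nsmul_eq_mul]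
        exact hlin _ _
      rw [h1, hf, ← mul_assoc, ← Units.val_mul, mul_inv_cancel, Units.val_one, one_mul]
    rw [Finset.sum_congr rfl fun d _ => this d, Finset.sum_const, Finset.card_univ,
      nsmul_eq_mul]
  rw [h0, map_zero, ZMod.card_units_eq_totient, Nat.totient_prime hp] at hsum
  have hcast : ((p - 1 : ℕ) : ZMod p) = -1 := by
    rw [Nat.cast_sub hp.one_le, ZMod.natCast_self, Nat.cast_one, zero_sub]
  rw [hcast, neg_one_mul, eq_comm, neg_eq_zero] at hsum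
  exact hy hsum

end Fermat.Agent.S14.EigenProj
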