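import Mathlib
import Fermat.Agent.S14.EigenProj
import Fermat.Agent.CFT.Stickelberger.Main

/-!
# S14b endgame: no `ω⁻¹`-equivariant functional on the class group of `ℚ(ζ_p)`

For `p` odd and `K = ℚ(ζ_p)` there is no nonzero additive map `g : Cl(K) → ℤ/p` with
`g (τ • c) = χ(τ)⁻¹ • g c` for all `τ ∈ Gal(K/ℚ)` (`χ` the cyclotomic character
`cycloGalEquiv p K`).  This is Stickelberger's theorem (helper2 + helper15) combined with the
eigen-projector (helper6).
-/

set_option autoImplicit false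

namespace Fermat.Agent.S14.Endgame

open NumberField JacobiSumStickelberger _root_.Stickelberger

variable (p : ℕ) [hp : Fact p.Prime] (K : Type*) [Field K] [NumberField K]
  [hK : IsCyclotomicExtension {p} ℚ K]

/-- Form with the action of `(ℤ/p)ˣ` through `clRingAction`. -/
theorem false_of_functional (hp2 : p ≠ 2) (g : Additive (ClassGroup (𝓞 K)) →+ ZMod p)
    (hne : ∃ c, g c ≠ 0)
    (hg : ∀ (d : (ZMod p)ˣ) (c : ClassGroup (𝓞 K)),
      g (Additive.ofMul (ClassGroup.mulEquiv (clRingAction p K d) c))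
        = ((d⁻¹ : (ZMod p)ˣ) : ZMod p) * g (Additive.ofMul c)) : False := by
  -- descend `g` to `Cl/p`
  have hker : nsmulRange p (Additive (ClassGroup (𝓞 K))) ≤ g.ker := by
    rintro _ ⟨y, rfl⟩
    rw [AddMonoidHom.mem_ker, map_nsmul, nsmul_eq_mul, ZMod.natCast_self, zero_mul]
  let gbar : ClGalModule p (𝓞 K) →+ ZMod p :=
    QuotientAddGroup.lift (nsmulRange p (Additive (ClassGroup (𝓞 K)))) g hker
  have hgbar : ∀ c : Additive (ClassGroup (𝓞 K)), gbar (clProj p (𝓞 K) c) = g c := fun c => rfl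
  obtain ⟨a, ha0, ha⟩ := EigenProj.exists_omega_eigenvector (clGalAction p K) gbar
    (fun d a => by
      obtain ⟨c, rfl⟩ := clProj_surjective p (𝓞 K) a
      have h1 : clGalAction p K d (clProj p (𝓞 K) c)
          = clProj p (𝓞 K) (Additive.ofMul
              (ClassGroup.mulEquiv (clRingAction p K d) (Additive.toMul c))) := rfl
      rw [h1, hgbar, hgbar, hg d (Additive.toMul c)]
      rfl)
    (by
      obtain ⟨c, hc⟩ := hne
      exact ⟨clProj p (𝓞 K) c, by rwa [hgbar]⟩)
  exact ha0 (Fermat.Agent.CFT.Stickelberger.eq_zero_of_isOmegaEigenvector p K hp2 ha)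

/-- Form with the action of `Gal(K/ℚ)`: no nonzero additive `g : Cl(K) → ℤ/p` with
`g (τ c) = χ(τ)⁻¹ g c`. -/
theorem false_of_galois_functional (hp2 : p ≠ 2) (g : Additive (ClassGroup (𝓞 K)) →+ ZMod p)
    (hne : ∃ c, g c ≠ 0)
    (hg : ∀ (τ : K ≃ₐ[ℚ] K) (c : ClassGroup (𝓞 K)),
      g (Additive.ofMul (ClassGroup.mulEquiv (galRestrictionDatum ℤ ℚ K (𝓞 K) τ) c))
        = (((cycloGalEquiv p K τ)⁻¹ : (ZMod p)ˣ) : ZMod p) * g (Additive.ofMul c)) : False := by
  refine false_of_functional p K hp2 g hne fun d c => ?_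
  have h := hg ((cycloGalEquiv p K).symm d) c
  rw [MulEquiv.apply_symm_apply] at h
  exact h

end Fermat.Agent.S14.Endgame
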