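import Mathlib
import Fermat.Agent.CFT.A5.ReciprocityK
import Fermat.Agent.CFT.A5.SplitRes

/-!
# S14b (E): equivariance of the Nakayama map

`Γ` a group, `C : Rep k Γ`, `φ` a `2`-cocycle of `C`, `H ⊴ Γ` a finite normal subgroup.  The
Nakayama map of the restricted pair `(Rep.res H C, φ|_H)` is `nak_H h = ∑_{τ ∈ H} φ (τ, h)`.  For
`σ ∈ Γ`, `h ∈ H` and `h' = σ h σ⁻¹`:

  `σ • nak_H h = nak_H h' + N_H (φ (σ, h) - φ (h', σ))`        (`rho_nak_res`).

Hence on `Ĥ⁰(H, C) = C^H / N_H C` (on which `Γ` acts, `conjH0`) the Nakayama classes satisfy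
`σ • [nak_H h] = [nak_H (σ h σ⁻¹)]` (`conjH0_nakClass`), and if `σ h σ⁻¹ = h ^ n` for all `h ∈ H`
and the Nakayama map is onto, `σ` acts on `Ĥ⁰(H, C)` as multiplication by `n` (`conjH0_eq_nsmul`).
-/

set_option autoImplicit false

universe u

noncomputable section

open CategoryTheory groupCohomology

namespace Fermat.Agent.S14.NakEquivariant

open Fermat.Agent.CFT.A5.Reciprocity Fermat.Agent.CFT.A5.ReciprocityK Fermat.Agent.CFT.A5.Split
  Fermat.Agent.CFT.A5.SplitRes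

variable {k Γ : Type u} [CommRing k] [Group Γ] (C : Rep.{u} k Γ) (φ : cocycles₂ C)
variable (H : Subgroup Γ) [H.Normal]

section Formula

variable [Fintype H]

omit [H.Normal] in
theorem nak_res_apply (h : H) :
    nak (Rep.res H.subtype C) (resPhi C φ H.subtype) h = ∑ τ : H, φ ((τ : Γ), (h : Γ)) := rfl

omit [H.Normal] in
theorem norm_res_apply (x : C.V) :
    (Rep.res H.subtype C).ρ.norm x = ∑ τ : H, C.ρ (τ : Γ) x := by
  unfold Representation.norm
  rw [LinearMap.sum_apply]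
  rfl

/-- **Equivariance of the Nakayama map**:
`σ • nak_H h = nak_H (σ h σ⁻¹) + N_H (φ (σ, h) - φ (σ h σ⁻¹, σ))`. -/
theorem rho_nak_res (σ : Γ) (h : H) :
    C.ρ σ (nak (Rep.res H.subtype C) (resPhi C φ H.subtype) h)
      = nak (Rep.res H.subtype C) (resPhi C φ H.subtype) (MulAut.conjNormal σ h)
        + (Rep.res H.subtype C).ρ.norm
            (φ (σ, (h : Γ)) - φ (((MulAut.conjNormal σ h : H) : Γ), σ)) := by
  have hcoe : ∀ τ : H, ((MulAut.conjNormal σ τ : H) : Γ) = σ * τ * σ⁻¹ :=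
    fun τ => MulAut.conjNormal_apply σ τ
  set h' : H := MulAut.conjNormal σ h with hh'
  have hσh : σ * (h : Γ) = (h' : Γ) * σ := by rw [hh', hcoe]; group
  rw [nak_res_apply, nak_res_apply, norm_res_apply, map_sum]
  -- step 1: `σ φ(τ, h) = φ(στ, h) + φ(σ, τ) - φ(σ, τ h)`
  have c1 : ∀ τ : H, C.ρ σ (φ ((τ : Γ), (h : Γ)))
      = φ (σ * τ, (h : Γ)) + φ (σ, (τ : Γ)) - φ (σ, ((τ * h : H) : Γ)) := by
    intro τ
    have := (mem_cocycles₂_iff φ).1 φ.2 σ τ h
    rw [this, Subgroup.coe_mul]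
    abel
  rw [Finset.sum_congr rfl fun τ _ => c1 τ, Finset.sum_sub_distrib, Finset.sum_add_distrib]
  have e1 : ∑ τ : H, φ (σ, ((τ * h : H) : Γ)) = ∑ τ : H, φ (σ, (τ : Γ)) :=
    Fintype.sum_equiv (Equiv.mulRight h) _ _ fun τ => rfl
  rw [e1, add_sub_cancel_right]
  -- step 2: reindex `τ' = σ τ σ⁻¹`
  have e2 : ∑ τ : H, φ (σ * τ, (h : Γ)) = ∑ τ' : H, φ ((τ' : Γ) * σ, (h : Γ)) :=
    Fintype.sum_equiv (MulAut.conjNormal σ : H ≃* H).toEquiv _ _ fun τ => by
      have : ((MulAut.conjNormal σ : H ≃* H).toEquiv τ : Γ) * σ = σ * τ := by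
        change ((MulAut.conjNormal σ τ : H) : Γ) * σ = σ * τ
        rw [hcoe]; group
      rw [this]
  rw [e2]
  -- step 3: two more cocycle identities
  have c2 : ∀ τ : H, φ ((τ : Γ) * σ, (h : Γ))
      = C.ρ (τ : Γ) (φ (σ, (h : Γ)) - φ ((h' : Γ), σ)) + φ ((τ : Γ), (h' : Γ))
        + (φ (((τ * h' : H) : Γ), σ) - φ ((τ : Γ), σ)) := by
    intro τ
    have i1 := (mem_cocycles₂_iff φ).1 φ.2 τ σ h
    have i2 := (mem_cocycles₂_iff φ).1 φ.2 τ h' σ
    rw [hσh] at i1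
    rw [map_sub, Subgroup.coe_mul]
    have i1' : φ ((τ : Γ) * σ, (h : Γ))
        = C.ρ (τ : Γ) (φ (σ, (h : Γ))) + φ ((τ : Γ), (h' : Γ) * σ) - φ ((τ : Γ), σ) := by
      rw [← i1]; abel
    have i2' : φ ((τ : Γ), (h' : Γ) * σ)
        = φ ((τ : Γ) * (h' : Γ), σ) + φ ((τ : Γ), (h' : Γ)) - C.ρ (τ : Γ) (φ ((h' : Γ), σ)) := by
      rw [i2]; abel
    rw [i1', i2']
    abel
  rw [Finset.sum_congr rfl fun τ _ => c2 τ, Finset.sum_add_distrib, Finset.sum_add_distrib,
    Finset.sum_sub_distrib]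
  have e3 : ∑ τ : H, φ (((τ * h' : H) : Γ), σ) = ∑ τ : H, φ ((τ : Γ), σ) :=
    Fintype.sum_equiv (Equiv.mulRight h') _ _ fun τ => rfl
  rw [e3, sub_self, add_zero, add_comm]

end Formula

/-! ### The action of `Γ` on `Ĥ⁰(H, C)` -/

section Action

/-- `σ ∈ Γ` acts on the `H`-invariants (`H` normal). -/
def conjInv (σ : Γ) :
    (Rep.res H.subtype C).ρ.invariants →ₗ[k] (Rep.res H.subtype C).ρ.invariants :=
  ((C.ρ σ).comp (Rep.res H.subtype C).ρ.invariants.subtype).codRestrict _ (by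
    intro x τ
    change C.ρ (τ : Γ) (C.ρ σ x.1) = C.ρ σ x.1
    have hx : C.ρ ((MulAut.conjNormal σ⁻¹ τ : H) : Γ) x.1 = x.1 :=
      x.2 (MulAut.conjNormal σ⁻¹ τ)
    rw [MulAut.conjNormal_apply, inv_inv] at hx
    rw [← Module.End.mul_apply, ← map_mul]
    have : (τ : Γ) * σ = σ * (σ⁻¹ * τ * σ) := by group
    rw [this, map_mul, Module.End.mul_apply, hx])

omit [H.Normal] in
theorem rho_invariant_res (x : (Rep.res H.subtype C).ρ.invariants) (τ : H) :
    C.ρ (τ : Γ) x.1 = x.1 := x.2 τ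

@[simp]
theorem conjInv_coe (σ : Γ) (x : (Rep.res H.subtype C).ρ.invariants) :
    ((conjInv C H σ x : (Rep.res H.subtype C).ρ.invariants) : C.V) = C.ρ σ x.1 := rfl

variable [Fintype H]

/-- `σ N_H c = N_H (σ c)`. -/
theorem rho_norm_res (σ : Γ) (c : C.V) :
    C.ρ σ ((Rep.res H.subtype C).ρ.norm c) = (Rep.res H.subtype C).ρ.norm (C.ρ σ c) := by
  rw [norm_res_apply, norm_res_apply, map_sum]
  refine Fintype.sum_equiv (MulAut.conjNormal σ : H ≃* H).toEquiv _ _ fun τ => ?_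
  change C.ρ σ (C.ρ (τ : Γ) c) = C.ρ ((MulAut.conjNormal σ τ : H) : Γ) (C.ρ σ c)
  rw [MulAut.conjNormal_apply, ← Module.End.mul_apply, ← Module.End.mul_apply, ← map_mul,
    ← map_mul]
  congr 2
  group

/-- The action of `σ ∈ Γ` on `Ĥ⁰(H, C) = C^H / N_H C`. -/
def conjH0 (σ : Γ) : H0hat (Rep.res H.subtype C) →ₗ[k] H0hat (Rep.res H.subtype C) :=
  (normSub (Rep.res H.subtype C)).mapQ (normSub (Rep.res H.subtype C)) (conjInv C H σ) (by
    intro x hx
    obtain ⟨c, hc⟩ := (mem_normSub _ x).1 hx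
    refine (mem_normSub _ _).2 ⟨C.ρ σ c, ?_⟩
    rw [conjInv_coe, ← hc, rho_norm_res])

@[simp]
theorem conjH0_mkQ (σ : Γ) (x : (Rep.res H.subtype C).ρ.invariants) :
    conjH0 C H σ ((normSub (Rep.res H.subtype C)).mkQ x)
      = (normSub (Rep.res H.subtype C)).mkQ (conjInv C H σ x) := rfl

/-- **Equivariance of the Nakayama classes**: `σ • [nak_H h] = [nak_H (σ h σ⁻¹)]` in
`Ĥ⁰(H, C)`. -/
theorem conjH0_nakClass (σ : Γ) (h : H) :
    conjH0 C H σ (nakClass (Rep.res H.subtype C) (resPhi C φ H.subtype) h)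
      = nakClass (Rep.res H.subtype C) (resPhi C φ H.subtype) (MulAut.conjNormal σ h) := by
  unfold nakClass
  rw [conjH0_mkQ, Submodule.mkQ_apply, Submodule.mkQ_apply, Submodule.Quotient.eq, mem_normSub]
  refine ⟨φ (σ, (h : Γ)) - φ (((MulAut.conjNormal σ h : H) : Γ), σ), ?_⟩
  change _ = C.ρ σ (nak (Rep.res H.subtype C) (resPhi C φ H.subtype) h)
    - nak (Rep.res H.subtype C) (resPhi C φ H.subtype) (MulAut.conjNormal σ h)
  rw [rho_nak_res]
  abel

omit [H.Normal] in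
theorem nakClass_pow (h : H) (n : ℕ) :
    nakClass (Rep.res H.subtype C) (resPhi C φ H.subtype) (h ^ n)
      = n • nakClass (Rep.res H.subtype C) (resPhi C φ H.subtype) h := by
  induction n with
  | zero =>
    rw [pow_zero, zero_smul]
    have := nakClass_mul (Rep.res H.subtype C) (resPhi C φ H.subtype) 1 1
    rw [mul_one] at this
    exact left_eq_add.mp this
  | succ n ih => rw [pow_succ, nakClass_mul, ih, succ_nsmul]

/-- If `σ h σ⁻¹ = h ^ n` for all `h ∈ H` and the Nakayama map of `(H, C)` is onto, then `σ` acts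
on `Ĥ⁰(H, C)` as multiplication by `n`. -/
theorem conjH0_eq_nsmul (σ : Γ) (n : ℕ) (hn : ∀ h : H, σ * (h : Γ) * σ⁻¹ = ((h ^ n : H) : Γ))
    (hsurj : Function.Surjective (nakLin (Rep.res H.subtype C) (resPhi C φ H.subtype)))
    (x : H0hat (Rep.res H.subtype C)) : conjH0 C H σ x = n • x := by
  obtain ⟨t, rfl⟩ := hsurj x
  induction t using TensorProduct.induction_on with
  | zero => rw [map_zero, map_zero, smul_zero]
  | add a b ha hb => rw [map_add, map_add, ha, hb, smul_add]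
  | tmul r g =>
    obtain ⟨h, rfl⟩ : ∃ h : H, g = Additive.ofMul (Abelianization.of h) := by
      obtain ⟨h, hh⟩ := QuotientGroup.mk_surjective (Additive.toMul g)
      exact ⟨h, (congrArg Additive.ofMul hh).symm⟩
    rw [nakLin_tmul, nakAdd_of, map_smul, conjH0_nakClass]
    have : (MulAut.conjNormal σ h : H) = h ^ n :=
      Subtype.ext ((MulAut.conjNormal_apply σ h).trans (hn h))
    rw [this, nakClass_pow, smul_comm]

end Action

end Fermat.Agent.S14.NakEquivariant
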