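import Mathlib
import Fermat.Agent.S14.NakEquivariant
import Fermat.Agent.S14.Endgame
import Fermat.Agent.CFT.A5.ClassRes

/-!
# S14b (A), abstract part: class field theory + Stickelberger ⇒ contradiction

`false_of_contract` : the purely algebraic core of S14b.  All number theory enters through the
hypotheses:

* `K = ℚ(ζ_p)`, `Γ = Gal(L/ℚ)` finite, `H = Gal(L/K) ⊴ Γ` of order `p`, `res : Γ → Gal(K/ℚ)`
  onto, and `σ h σ⁻¹ = h ^ n` whenever `n · χ(σ) = 1` (the `ω⁻¹`-condition);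
* a class module `(A, φ)` for `Γ` over a ring `k` with a ring homomorphism `k → ℤ/p`
  (`k = ℤ_(p)`; `A = C_L ⊗ ℤ_(p)`);
* an abelian group `X` with an action of `Gal(K/ℚ)` (`X = J_K`), an equivariant additive map
  `ι : X → A^H`, whose image generates `A^H` up to integers prime to `p`;
* an equivariant surjection `Φ : X → Cl(K)` whose kernel is mapped by `ι` into `N_H A`.
-/

set_option autoImplicit false

noncomputable section

open CategoryTheory groupCohomology NumberField JacobiSumStickelberger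

namespace Fermat.Agent.S14.Abstract

open Fermat.Agent.CFT.A5 Fermat.Agent.CFT.A5.Tate Fermat.Agent.CFT.A5.Reciprocity
  Fermat.Agent.CFT.A5.ReciprocityK Fermat.Agent.CFT.A5.SplitRes Fermat.Agent.CFT.A5.ClassRes
  Fermat.Agent.S14.NakEquivariant TensorProduct

variable {p : ℕ} [Fact p.Prime]

section Functional

variable {k Γ : Type} [CommRing k] [Group Γ] {A : Rep.{0} k Γ} {φ : cocycles₂ A}

/-- An additive character of `H^ab` which is onto `ℤ/p`, for `H` of order `p`. -/
theorem exists_character (H : Type) [Group H] (hH : Nat.card H = p) :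
    ∃ (ψ : Additive (Abelianization H) →+ ZMod p) (h₀ : H),
      ψ (Additive.ofMul (Abelianization.of h₀)) = 1 := by
  have hp : p.Prime := Fact.out
  have hcyc : IsCyclic H := isCyclic_of_prime_card hH
  let e : Multiplicative (ZMod p) ≃* H :=
    (AddEquiv.toMultiplicative (ZMod.ringEquivCongr hH.symm).toAddEquiv).trans
      (zmodCyclicMulEquiv hcyc)
  let ψ₀ : Abelianization H →* Multiplicative (ZMod p) := Abelianization.lift e.symm.toMonoidHom
  refine ⟨MonoidHom.toAdditiveLeft ψ₀, e (Multiplicative.ofAdd 1), ?_⟩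
  change Multiplicative.toAdd (ψ₀ (Abelianization.of (e (Multiplicative.ofAdd 1)))) = 1
  rw [Abelianization.lift_apply_of]
  change Multiplicative.toAdd (e.symm (e (Multiplicative.ofAdd 1))) = 1
  rw [MulEquiv.symm_apply_apply]
  rfl

/-- The additive functional `r ⊗ g ↦ π r * ψ g` on `k ⊗ H^ab`. -/
def tensorFunctional {H : Type} [Group H] (π : k →+* ZMod p)
    (ψ : Additive (Abelianization H) →+ ZMod p) : Gabk k H →+ ZMod p :=
  TensorProduct.liftAddHom
    { toFun := fun r => (AddMonoidHom.mulLeft (π r)).comp ψ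
      map_zero' := by ext g; simp
      map_add' := fun r s => by ext g; simp [add_mul] }
    (fun z r g => by
      simp only [AddMonoidHom.coe_mk, ZeroHom.coe_mk, AddMonoidHom.comp_apply,
        AddMonoidHom.coe_mulLeft, map_zsmul, zsmul_eq_mul, map_mul, map_intCast]
      ring)

@[simp]
theorem tensorFunctional_tmul {H : Type} [Group H] (π : k →+* ZMod p)
    (ψ : Additive (Abelianization H) →+ ZMod p) (r : k) (g : Additive (Abelianization H)) :
    tensorFunctional π ψ (r ⊗ₜ[ℤ] g) = π r * ψ g := rfl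

/-- **The functional**: for a class module `(A, φ)` and a normal subgroup `H` of order `p`, there
is a nonzero additive `θ : Ĥ⁰(H, A) → ℤ/p` such that `θ (σ • x) = n • θ x` whenever `σ` acts on `H`
by `h ↦ h ^ n`. -/
theorem exists_functional (hR : AddHomsLinear k)
    (hpR : ∀ q : ℕ, q.Prime → ∀ r : k, (q : k) * r = 0 → r = 0) (hA : IsClassModule A φ)
    (H : Subgroup Γ) [H.Normal] [Fintype H] (hH : Nat.card H = p) (π : k →+* ZMod p) :
    ∃ θ : H0hat (Rep.res H.subtype A) →+ ZMod p, (∃ x, θ x ≠ 0) ∧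
      ∀ (σ : Γ) (n : ℕ), (∀ h : H, σ * (h : Γ) * σ⁻¹ = ((h ^ n : H) : Γ)) →
        ∀ x, θ (conjH0 A H σ x) = (n : ZMod p) * θ x := by
  obtain ⟨ψ, h₀, hψ⟩ := exists_character (p := p) H hH
  let E := nakLinEquivRes hR hpR hA H
  refine ⟨(tensorFunctional π ψ).comp E.symm.toLinearMap.toAddMonoidHom, ?_, ?_⟩
  · refine ⟨nakClass (Rep.res H.subtype A) (resPhi A φ H.subtype) h₀, ?_⟩
    change tensorFunctional π ψ (E.symm (nakClass (Rep.res H.subtype A) (resPhi A φ H.subtype) h₀))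
      ≠ 0
    rw [← nakLinEquivRes_gab hR hpR hA H h₀, LinearEquiv.symm_apply_apply]
    unfold gab
    rw [tensorFunctional_tmul, map_one, one_mul, hψ]
    exact one_ne_zero
  · intro σ n hn x
    rw [conjH0_eq_nsmul A φ H σ n hn (nakLin_res_bijective hR hpR hA H).2 x, map_nsmul,
      nsmul_eq_mul]

end Functional

section Contract

variable (K : Type) [Field K] [NumberField K] [IsCyclotomicExtension {p} ℚ K]
variable {k Γ : Type} [CommRing k] [Group Γ] {A : Rep.{0} k Γ} {φ : cocycles₂ A}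

/-- **S14b, abstract core.** -/
theorem false_of_contract (hp2 : p ≠ 2)
    (hR : AddHomsLinear k) (hpR : ∀ q : ℕ, q.Prime → ∀ r : k, (q : k) * r = 0 → r = 0)
    (π : k →+* ZMod p) (hA : IsClassModule A φ)
    (H : Subgroup Γ) [H.Normal] [Fintype H] (hH : Nat.card H = p)
    (res : Γ →* (K ≃ₐ[ℚ] K)) (hres : Function.Surjective res)
    (hconj : ∀ (σ : Γ) (n : ℕ),
      (n : ZMod p) * ((cycloGalEquiv p K (res σ) : (ZMod p)ˣ) : ZMod p) = 1 →
      ∀ h : H, σ * (h : Γ) * σ⁻¹ = ((h ^ n : H) : Γ))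
    {X : Type} [AddCommGroup X] (act : (K ≃ₐ[ℚ] K) → X →+ X)
    (ι : X →+ A.V) (hιinv : ∀ (x : X) (h : H), A.ρ (h : Γ) (ι x) = ι x)
    (hιact : ∀ (σ : Γ) (x : X), ι (act (res σ) x) = A.ρ σ (ι x))
    (hιgen : ∀ a : A.V, (∀ h : H, A.ρ (h : Γ) a = a) →
      ∃ s : ℤ, ¬ (p : ℤ) ∣ s ∧ ∃ x : X, ι x = s • a)
    (Φ : X →+ Additive (ClassGroup (𝓞 K))) (hΦ : Function.Surjective Φ)
    (hΦact : ∀ (τ : K ≃ₐ[ℚ] K) (x : X), Φ (act τ x) = Additive.ofMul
      (ClassGroup.mulEquiv (galRestrictionDatum ℤ ℚ K (𝓞 K) τ) (Additive.toMul (Φ x))))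
    (hker : ∀ x : X, Φ x = 0 → ∃ y : A.V, ι x = ∑ h : H, A.ρ (h : Γ) y) : False := by
  classical
  have hp : p.Prime := Fact.out
  obtain ⟨θ, ⟨x₀, hx₀⟩, hθ⟩ := exists_functional hR hpR hA H hH π
  -- the map `X → Ĥ⁰(H, A)`
  let ιinv : X →+ (Rep.res H.subtype A).ρ.invariants :=
    { toFun := fun x => ⟨ι x, fun h => hιinv x h⟩
      map_zero' := Subtype.ext (map_zero ι)
      map_add' := fun a b => Subtype.ext (map_add ι a b) }
  let g : X →+ ZMod p :=
    θ.comp ((normSub (Rep.res H.subtype A)).mkQ.toAddMonoidHom.comp ιinv)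
  have hg_apply : ∀ x, g x = θ ((normSub (Rep.res H.subtype A)).mkQ (ιinv x)) := fun x => rfl
  -- `g` kills the kernel of `Φ`
  have hgker : ∀ x, Φ x = 0 → g x = 0 := by
    intro x hx
    obtain ⟨y, hy⟩ := hker x hx
    rw [hg_apply]
    have : (normSub (Rep.res H.subtype A)).mkQ (ιinv x) = 0 := by
      rw [Submodule.mkQ_apply, Submodule.Quotient.mk_eq_zero, mem_normSub]
      exact ⟨y, by rw [norm_res_apply]; exact hy.symm⟩
    rw [this, map_zero]
  -- equivariance of `g`
  have hgact : ∀ (σ : Γ) (n : ℕ),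
      (n : ZMod p) * ((cycloGalEquiv p K (res σ) : (ZMod p)ˣ) : ZMod p) = 1 →
      ∀ x, g (act (res σ) x) = (n : ZMod p) * g x := by
    intro σ n hn x
    rw [hg_apply, hg_apply, ← hθ σ n (hconj σ n hn)]
    congr 1
    rw [conjH0_mkQ]
    congr 1
    exact Subtype.ext (hιact σ x)
  -- `g` is nonzero
  have hgne : ∃ x, g x ≠ 0 := by
    obtain ⟨a, rfl⟩ := Submodule.mkQ_surjective _ x₀
    obtain ⟨s, hs, x, hx⟩ := hιgen a.1 (fun h => a.2 h)
    refine ⟨x, ?_⟩
    rw [hg_apply]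
    have h1 : ιinv x = s • a := Subtype.ext hx
    rw [h1, map_zsmul, map_zsmul, zsmul_eq_mul]
    refine mul_ne_zero ?_ hx₀
    rwa [Ne, ZMod.intCast_zmod_eq_zero_iff_dvd]
  -- descend to the class group
  have hle : Φ.ker ≤ g.ker := fun x hx => hgker x hx
  let gbar : Additive (ClassGroup (𝓞 K)) →+ ZMod p :=
    (QuotientAddGroup.lift Φ.ker g hle).comp
      (QuotientAddGroup.quotientKerEquivOfSurjective Φ hΦ).symm.toAddMonoidHom
  have hgbar : ∀ x, gbar (Φ x) = g x := by
    intro x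
    change QuotientAddGroup.lift Φ.ker g hle
      ((QuotientAddGroup.quotientKerEquivOfSurjective Φ hΦ).symm (Φ x)) = g x
    have : (QuotientAddGroup.quotientKerEquivOfSurjective Φ hΦ).symm (Φ x)
        = QuotientAddGroup.mk x := by
      rw [AddEquiv.symm_apply_eq]
      rfl
    rw [this]
    rfl
  refine Endgame.false_of_galois_functional p K hp2 gbar ?_ ?_
  · obtain ⟨x, hx⟩ := hgne
    exact ⟨Φ x, by rwa [hgbar]⟩
  · intro τ c
    obtain ⟨σ, rfl⟩ := hres τ
    obtain ⟨x, hx⟩ := hΦ (Additive.ofMul c)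
    have hc : c = Additive.toMul (Φ x) := by rw [hx]; rfl
    rw [hc, ← hΦact, hgbar]
    have hx' : Additive.ofMul (Additive.toMul (Φ x)) = Φ x := rfl
    rw [hx', hgbar]
    -- choose `n` with `n χ(σ) = 1`
    set d : (ZMod p)ˣ := cycloGalEquiv p K (res σ) with hd
    have hn : ((((d⁻¹ : (ZMod p)ˣ) : ZMod p).val : ℕ) : ZMod p) * ((d : (ZMod p)ˣ) : ZMod p) = 1 := by
      rw [ZMod.natCast_zmod_val, ← Units.val_mul, inv_mul_cancel, Units.val_one]
    rw [hgact σ _ hn x, ZMod.natCast_zmod_val]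

end Contract

end Fermat.Agent.S14.Abstract
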