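import Mathlib
import Fermat.Agent.CFT.C5.NormIdele
import Fermat.Agent.CFT.C6.SplitIdem
import Fermat.Agent.CFT.Idele.Class

/-!
# S14b-(N): unit ideles are norms from an everywhere "locally trivial" cyclic extension

`L/K` a cyclic extension of number fields (as `Type`s, `[Algebra K L] [IsGalois K L]`).  If every
rational prime `q` either does not divide the discriminant of `L` or splits completely in `L/K`
(in particular: `L` unramified outside one rational prime `P`, and every prime of `L` over `P` has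
trivial decomposition group in `Gal(L/K)`), then every unit idele of `K` is the norm of an idele of
`L`:

  `JTsub K ∅ ≤ (normJ K L).range`.

Inputs: helper20's local-global principle for idele norms (`C5/NormIdele`), helper25's
`Semilocal/Unramified` (integral units are norms at `q ∤ disc`), helper29's
`NonSplit.exists_local_norm_of_split` and helper12's `SplitIdem.splitsCompletely_of_forall_ideal`.

Everything is in pure number-field language; the dictionary from the prelude's
`IsOmegaInvField` to the hypotheses `hunr`, `hsplit` is `S14/FieldDict.lean`.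
-/

set_option autoImplicit false

open scoped NumberField Pointwise

open Fermat.Agent.CFT.Idele Fermat.Agent.CFT.C5.NormIdele Fermat.Agent.CFT.C5.NonSplit
  Fermat.Agent.CFT.C6.IdeleNorm Fermat.Agent.CFT.C6.SplitIdem

noncomputable section

namespace Fermat.Agent.S14.UnramNorm

variable {K L : Type} [Field K] [NumberField K] [Field L] [NumberField L] [Algebra K L]

/-! ### Local norms -/

/-- At a completely split prime every local unit is a local norm. -/
theorem mem_locNorm_of_splitsCompletely {q : Nat.Primes} (hq : SplitsCompletely K L q)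
    (u : (Loc K q)ˣ) : u ∈ locNorm K L q := by
  obtain ⟨y, -, hy⟩ := exists_local_norm_of_split hq u
  refine ⟨y, ?_⟩
  rw [locNormHom, MonoidHom.finsetProd_apply]
  exact hy

/-- At a prime not dividing the discriminant of `L`, integral units are local norms
(`L/K` cyclic). -/
theorem mem_locNorm_of_not_dvd_discr {q : Nat.Primes} (g : L ≃ₐ[K] L)
    (hgen : ∀ τ : L ≃ₐ[K] L, τ ∈ Subgroup.zpowers g)
    (hq : ¬ (((q : ℕ) : ℤ) ∣ NumberField.discr L)) {u : (Loc K q)ˣ} (hu : u ∈ intUnits K q) :
    u ∈ locNorm K L q := by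
  obtain ⟨y, -, hy⟩ := exists_intUnit_norm_eq g hgen hq hu
  exact mem_locNorm.mpr ⟨y, hy⟩

/-! ### The idele statement -/

/-- **General form.**  `L/K` cyclic, `T` a set of rational primes which split completely in `L/K`,
every other prime unramified in `L` or completely split in `L/K`: every idele of `K` which is a
unit outside `T` is a norm from `L`. -/
theorem jTsub_le_range_normJ [IsGalois K L] (g : L ≃ₐ[K] L)
    (hgen : ∀ τ : L ≃ₐ[K] L, τ ∈ Subgroup.zpowers g) (T : Set Nat.Primes)
    (hT : ∀ q ∈ T, SplitsCompletely K L q)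
    (h : ∀ q : Nat.Primes, q ∉ T →
      ¬ (((q : ℕ) : ℤ) ∣ NumberField.discr L) ∨ SplitsCompletely K L q) :
    JTsub K T ≤ (normJ K L).range := by
  intro x hx
  refine mem_range_normJ_of_forall_mem_locNorm g hgen x fun q => ?_
  by_cases hqT : q ∈ T
  · exact mem_locNorm_of_splitsCompletely (hT q hqT) _
  · rcases h q hqT with hq | hq
    · exact mem_locNorm_of_not_dvd_discr g hgen hq ((mem_JTsub K).mp hx q hqT)
    · exact mem_locNorm_of_splitsCompletely hq _

/-- **S14b-(N).**  `L/K` cyclic, unramified outside the rational prime `P`, and no prime of `L`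
above `P` is fixed by a nontrivial element of `Gal(L/K)`: every unit idele of `K` is a norm
from `L`. -/
theorem jTsub_empty_le_range_normJ [IsGalois K L] (P : Nat.Primes) (g : L ≃ₐ[K] L)
    (hgen : ∀ τ : L ≃ₐ[K] L, τ ∈ Subgroup.zpowers g)
    (hunr : ∀ q : Nat.Primes, q ≠ P → ¬ (((q : ℕ) : ℤ) ∣ NumberField.discr L))
    (hsplit : ∀ Q : Ideal (𝓞 L), Q.IsPrime → ((P : ℕ) : 𝓞 L) ∈ Q → ∀ σ : L ≃ₐ[K] L,
      σ • Q = Q → σ = 1) :
    JTsub K (∅ : Set Nat.Primes) ≤ (normJ K L).range := by
  refine jTsub_le_range_normJ g hgen ∅ (fun q hq => absurd hq (Set.notMem_empty q))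
    fun q _ => ?_
  by_cases hqP : q = P
  · subst hqP
    exact Or.inr (splitsCompletely_of_forall_ideal hsplit)
  · exact Or.inl (hunr q hqP)

/-- the Galois group of an extension of prime degree is generated by any nontrivial element -/
theorem exists_generator_of_finrank_prime [IsGalois K L] {p : ℕ} (hp : p.Prime)
    (hdeg : Module.finrank K L = p) :
    ∃ g : L ≃ₐ[K] L, ∀ τ : L ≃ₐ[K] L, τ ∈ Subgroup.zpowers g := by
  have : Fact p.Prime := ⟨hp⟩
  have hcard : Nat.card (L ≃ₐ[K] L) = p := by rw [IsGalois.card_aut_eq_finrank, hdeg]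
  have : IsCyclic (L ≃ₐ[K] L) := isCyclic_of_prime_card hcard
  exact IsCyclic.exists_generator

/-- **S14b-(N), prime degree form.** -/
theorem jTsub_empty_le_range_normJ_of_finrank_prime [IsGalois K L] {p : ℕ} (hp : p.Prime)
    (hdeg : Module.finrank K L = p) (P : Nat.Primes)
    (hunr : ∀ q : Nat.Primes, q ≠ P → ¬ (((q : ℕ) : ℤ) ∣ NumberField.discr L))
    (hsplit : ∀ Q : Ideal (𝓞 L), Q.IsPrime → ((P : ℕ) : 𝓞 L) ∈ Q → ∀ σ : L ≃ₐ[K] L,
      σ • Q = Q → σ = 1) :
    JTsub K (∅ : Set Nat.Primes) ≤ (normJ K L).range := by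
  obtain ⟨g, hgen⟩ := exists_generator_of_finrank_prime hp hdeg
  exact jTsub_empty_le_range_normJ P g hgen hunr hsplit

/-- **S14b-(N), in the shape of `S14/FieldDict.OmegaInvData`** (`p` a natural number with
`[Fact p.Prime]`, same prime for the degree and the exceptional place). -/
theorem jTsub_empty_le_range_normJ_of_fact [IsGalois K L] (p : ℕ) [hp : Fact p.Prime]
    (hdeg : Module.finrank K L = p)
    (hunr : ∀ q : Nat.Primes, (q : ℕ) ≠ p → ¬ (((q : ℕ) : ℤ) ∣ NumberField.discr L))
    (hsplit : ∀ Q : Ideal (𝓞 L), Q.IsPrime → ((p : ℕ) : 𝓞 L) ∈ Q → ∀ σ : L ≃ₐ[K] L,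
      σ • Q = Q → σ = 1) :
    JTsub K (∅ : Set Nat.Primes) ≤ (normJ K L).range :=
  jTsub_empty_le_range_normJ_of_finrank_prime hp.out hdeg ⟨p, hp.out⟩
    (fun q hq => hunr q fun h => hq (Subtype.ext h)) hsplit

/-- every unit idele of `K` is the norm of an idele of `L` (element form) -/
theorem exists_normJ_eq_of_fact [IsGalois K L] (p : ℕ) [Fact p.Prime]
    (hdeg : Module.finrank K L = p)
    (hunr : ∀ q : Nat.Primes, (q : ℕ) ≠ p → ¬ (((q : ℕ) : ℤ) ∣ NumberField.discr L))
    (hsplit : ∀ Q : Ideal (𝓞 L), Q.IsPrime → ((p : ℕ) : 𝓞 L) ∈ Q → ∀ σ : L ≃ₐ[K] L,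
      σ • Q = Q → σ = 1) (x : J K) (hx : x ∈ JTsub K (∅ : Set Nat.Primes)) :
    ∃ y : J L, normJ K L y = x :=
  jTsub_empty_le_range_normJ_of_fact p hdeg hunr hsplit hx

/-! ### Class-level forms -/

/-- the image in `C_K` of a group of norm ideles consists of norm classes -/
theorem map_toC_le_range_normC [IsGalois K L] {H : Subgroup (J K)}
    (hH : H ≤ (normJ K L).range) : H.map (toC K) ≤ (normC K L).range := by
  rintro _ ⟨x, hx, rfl⟩
  obtain ⟨y, rfl⟩ := hH hx
  exact ⟨toC L y, normC_toC K L y⟩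

/-- `K^× · H ≤ K^× · N J_L` for a group `H` of norm ideles. -/
theorem diag_sup_le_diag_sup_range_normJ [IsGalois K L] {H : Subgroup (J K)}
    (hH : H ≤ (normJ K L).range) :
    (diag K).range ⊔ H ≤ (diag K).range ⊔ (normJ K L).range :=
  sup_le_sup_left hH _

/-- **S14b-(N), class form.** the classes of the unit ideles of `K` are norms from `C_L`. -/
theorem map_toC_jTsub_empty_le_range_normC [IsGalois K L] {p : ℕ} (hp : p.Prime)
    (hdeg : Module.finrank K L = p) (P : Nat.Primes)
    (hunr : ∀ q : Nat.Primes, q ≠ P → ¬ (((q : ℕ) : ℤ) ∣ NumberField.discr L))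
    (hsplit : ∀ Q : Ideal (𝓞 L), Q.IsPrime → ((P : ℕ) : 𝓞 L) ∈ Q → ∀ σ : L ≃ₐ[K] L,
      σ • Q = Q → σ = 1) :
    (JTsub K (∅ : Set Nat.Primes)).map (toC K) ≤ (normC K L).range :=
  map_toC_le_range_normC (jTsub_empty_le_range_normJ_of_finrank_prime hp hdeg P hunr hsplit)

end Fermat.Agent.S14.UnramNorm
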