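import Mathlib
import Fermat.Agent.S14.Abstract
import Fermat.Agent.CFT.Idele.ClassDescent
import Fermat.Agent.CFT.C6.IdeleNorm
import Fermat.Agent.CFT.A7.BaseChangeInv
import Fermat.Agent.CFT.A7.BaseChangeCard
import Fermat.Agent.CFT.A5.TateLocal
import Fermat.Agent.S14.IdeleClassGroup
import Fermat.Agent.S14.UnramNorm

/-!
# S14b (A), number-field level

`false_of_fields` : for `K = ℚ(ζ_p)` (`p` odd) there is no cyclic extension `L/K` of degree `p`,
Galois over `ℚ`, such that

* (conj) `Gal(K/ℚ)` acts on `Gal(L/K)` through `ω⁻¹`;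
* (N) every idele of `K` which is a unit everywhere is a norm from `J_L`
  (`L/K` unramified and totally split above `p`);

GIVEN
* (P) a `p`-primary class module: a localisation `C_L → A` at integers prime to `p` with
  `(A, φ)` a class module for `Gal(L/ℚ)` over a ring `k` with a ring map `k → ℤ/p`;
* (Cl) an equivariant surjection `J_K → Cl(K)` with kernel `Kˣ · ∏ U_v`.
-/

set_option autoImplicit false

noncomputable section

open CategoryTheory groupCohomology NumberField JacobiSumStickelberger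

namespace Fermat.Agent.S14.Main

open Fermat.Agent.CFT.A5 Fermat.Agent.CFT.A5.Tate Fermat.Agent.CFT.Idele
  Fermat.Agent.CFT.C6.IdeleNorm Fermat.Agent.CFT.A7.BaseChange

variable {p : ℕ} [Fact p.Prime]
variable (K L : Type) [Field K] [Field L] [NumberField K] [NumberField L] [Algebra K L]
  [Normal ℚ K]

/-- `Gal(L/K)` as a (normal) subgroup of `Gal(L/ℚ)`: the kernel of the restriction to `K`. -/
def HK : Subgroup (L ≃ₐ[ℚ] L) := (AlgEquiv.restrictNormalHom (F := ℚ) (K₁ := L) K).ker

instance : (HK K L).Normal := MonoidHom.normal_ker _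

theorem mem_HK_iff (σ : L ≃ₐ[ℚ] L) :
    σ ∈ HK K L ↔ ∀ a : K, σ (algebraMap K L a) = algebraMap K L a := by
  unfold HK
  rw [MonoidHom.mem_ker, AlgEquiv.ext_iff]
  refine forall_congr' fun a => ?_
  rw [← (algebraMap K L).injective.eq_iff]
  change algebraMap K L (σ.restrictNormal K a) = algebraMap K L a ↔ _
  rw [AlgEquiv.restrictNormal_commutes]

theorem galHom_mem_HK (τ : L ≃ₐ[K] L) : galHom K L τ ∈ HK K L :=
  (mem_HK_iff K L _).2 fun a => τ.commutes a

/-- `Gal(L/K) ≃ HK`. -/
def galEquivHK : (L ≃ₐ[K] L) ≃ HK K L :=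
  Equiv.ofBijective (fun τ => ⟨galHom K L τ, galHom_mem_HK K L τ⟩)
    ⟨fun a b h => galHom_injective K L (congrArg Subtype.val h), fun h => by
      refine ⟨AlgEquiv.ofRingEquiv (f := (h.1 : L ≃+* L)) ((mem_HK_iff K L h.1).1 h.2), ?_⟩
      apply Subtype.ext
      ext a
      rfl⟩

@[simp]
theorem coe_galEquivHK (τ : L ≃ₐ[K] L) : ((galEquivHK K L τ : HK K L) : L ≃ₐ[ℚ] L) = galHom K L τ :=
  rfl

instance : Fintype (HK K L) := Fintype.ofFinite _

theorem card_HK [IsGalois K L] : Nat.card (HK K L) = Module.finrank K L := by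
  rw [← Nat.card_congr (galEquivHK K L), IsGalois.card_aut_eq_finrank]

section Main

variable [IsCyclotomicExtension {p} ℚ K] [IsGalois K L] [Normal ℚ L]
variable {k : Type} [CommRing k]

/-- The map `J_K → C_L`, additively. -/
def toCL : Additive (J K) →+ Additive (C L) :=
  MonoidHom.toAdditive ((toC L).comp (J.map (inclHom K L)))

omit [Normal ℚ K] [IsGalois K L] in
theorem toCL_apply (x : J K) :
    toCL K L (Additive.ofMul x) = Additive.ofMul (toC L (J.map (inclHom K L) x)) := rfl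

/-- The action of `Gal(K/ℚ)` on `J_K`, additively. -/
def actJ (τ : K ≃ₐ[ℚ] K) : Additive (J K) →+ Additive (J K) :=
  MonoidHom.toAdditive (MulDistribMulAction.toMonoidHom (J K) τ)

omit [Normal ℚ K] in
theorem actJ_apply (τ : K ≃ₐ[ℚ] K) (x : J K) :
    actJ K τ (Additive.ofMul x) = Additive.ofMul (τ • x) := rfl

/-- Equivariance of a localisation map on `C_L`. -/
theorem floc_smul {A : Rep.{0} k (L ≃ₐ[ℚ] L)} {M : Submonoid ℤ} {floc : Additive (C L) →+ A.V}
    (hf : IsLocRep M (repC L) A floc) (σ : L ≃ₐ[ℚ] L) (c : C L) :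
    A.ρ σ (floc (Additive.ofMul c)) = floc (Additive.ofMul (σ • c)) :=
  (hf.map_ρ σ (Additive.ofMul c)).symm

/-- **S14b at the level of number fields**: (P) + (Cl) + (N) + (conj) are contradictory. -/
theorem false_of_fields (hp2 : p ≠ 2) (hdeg : Module.finrank K L = p)
    -- (P): the `p`-primary class module
    (hR : AddHomsLinear k) (hpR : ∀ q : ℕ, q.Prime → ∀ r : k, (q : k) * r = 0 → r = 0)
    (π : k →+* ZMod p)
    (A : Rep.{0} k (L ≃ₐ[ℚ] L)) (φ : cocycles₂ A) (hA : IsClassModule A φ)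
    (M : Submonoid ℤ) (hM : ∀ s ∈ M, ¬ (p : ℤ) ∣ s)
    (floc : Additive (C L) →+ A.V) (hf : IsLocRep M (repC L) A floc)
    -- (conj): `Δ` acts on `Gal(L/K)` through `ω⁻¹`
    (hconj : ∀ (σ : L ≃ₐ[ℚ] L) (n : ℕ),
      (n : ZMod p) *
        ((cycloGalEquiv p K (AlgEquiv.restrictNormalHom K σ) : (ZMod p)ˣ) : ZMod p) = 1 →
      ∀ h ∈ HK K L, σ * h * σ⁻¹ = h ^ n)
    -- (Cl): ideles to ideal classes
    (Φ : J K →* ClassGroup (𝓞 K)) (hΦ : Function.Surjective Φ)
    (hΦker : ∀ x : J K, Φ x = 1 → x ∈ (diag K).range ⊔ JTsub K ∅)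
    (hΦact : ∀ (τ : K ≃ₐ[ℚ] K) (x : J K),
      Φ (τ • x) = ClassGroup.mulEquiv (galRestrictionDatum ℤ ℚ K (𝓞 K) τ) (Φ x))
    -- (N): everywhere-units are norms
    (hN : ∀ u ∈ JTsub K ∅, ∃ y : J L, normJ K L y = u) : False := by
  classical
  have hfix : ∀ (h : HK K L) (a : K), (h : L ≃ₐ[ℚ] L) (inclHom K L a) = inclHom K L a :=
    fun h a => (mem_HK_iff K L h.1).1 h.2 a
  have hcomm : ∀ (σ : L ≃ₐ[ℚ] L) (a : K),
      σ (inclHom K L a) = inclHom K L (AlgEquiv.restrictNormalHom K σ a) := fun σ a =>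
    (AlgEquiv.restrictNormal_commutes σ K a).symm
  -- the two basic identities on `C_L`
  have hinvC : ∀ (h : HK K L) (x : J K),
      (h : L ≃ₐ[ℚ] L) • toC L (J.map (inclHom K L) x) = toC L (J.map (inclHom K L) x) := by
    intro h x
    rw [smul_toC, J.smul_map_of_fixes (inclHom K L) h.1 (hfix h)]
  have hactC : ∀ (σ : L ≃ₐ[ℚ] L) (x : J K),
      toC L (J.map (inclHom K L) (AlgEquiv.restrictNormalHom K σ • x))
        = σ • toC L (J.map (inclHom K L) x) := by
    intro σ x
    rw [smul_toC, J.map_smul (inclHom K L) (AlgEquiv.restrictNormalHom K σ) σ (hcomm σ)]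
  refine Abstract.false_of_contract K hp2 hR hpR π hA (HK K L)
    (by rw [card_HK, hdeg]) (AlgEquiv.restrictNormalHom K)
    (AlgEquiv.restrictNormalHom_surjective L)
    (fun σ n hn h => by
      have := hconj σ n hn h.1 h.2
      rw [this]
      rfl)
    (actJ K) (floc.comp (toCL K L)) ?_ ?_ ?_ (MonoidHom.toAdditive Φ) hΦ ?_ ?_
  · -- invariance under `H`
    intro x h
    exact (floc_smul L hf h.1 _).trans (congrArg (fun c => floc (Additive.ofMul c))
      (hinvC h (Additive.toMul x)))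
  · -- equivariance
    intro σ x
    exact (congrArg (fun c => floc (Additive.ofMul c)) (hactC σ (Additive.toMul x))).trans
      (floc_smul L hf σ _).symm
  · -- generation of the invariants up to integers prime to `p`
    intro a ha
    obtain ⟨s, hs, x, hx⟩ := (hf.quotientToInvariants (HK K L)).surj ⟨a, fun h => ha h⟩
    have hx' : algebraMap ℤ k s • a = floc x.1 := congrArg Subtype.val hx
    -- `x ∈ (C L)^H` comes from `C K`
    have hxinv : ∀ τ : L ≃ₐ[K] L, galHom K L τ • (Additive.toMul x.1 : C L) = Additive.toMul x.1 :=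
      fun τ => congrArg Additive.toMul (x.2 (galEquivHK K L τ))
    obtain ⟨c, hc⟩ := C.mem_range_map_inclHom K L (Additive.toMul x.1) hxinv
    obtain ⟨y, rfl⟩ := toC_surjective K c
    refine ⟨s, hM s hs, Additive.ofMul y, ?_⟩
    have h2 : floc (Additive.ofMul (toC L (J.map (inclHom K L) y))) = floc x.1 :=
      congrArg (fun c => floc (Additive.ofMul c)) hc
    have h3 : algebraMap ℤ k s • a = s • a := by
      rw [algebraMap_int_eq, eq_intCast, Int.cast_smul_eq_zsmul]
    exact h2.trans (hx'.symm.trans h3)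
  · -- equivariance of `Φ`
    intro τ x
    exact congrArg Additive.ofMul (hΦact τ (Additive.toMul x))
  · -- the kernel of `Φ` goes to norms
    intro x hx
    have hx1 : Φ (Additive.toMul x) = 1 := congrArg Additive.toMul hx
    obtain ⟨d, ⟨a, rfl⟩, u, hu, hxu⟩ := Subgroup.mem_sup.1 (hΦker _ hx1)
    obtain ⟨y, rfl⟩ := hN u hu
    refine ⟨floc (Additive.ofMul (toC L y)), ?_⟩
    have h0 : toC L (J.map (inclHom K L) (Additive.toMul x))
        = ∏ τ : L ≃ₐ[K] L, galHom K L τ • toC L y := by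
      rw [← hxu, map_mul, map_mul, J.map_diag, toC_diag, one_mul, map_normJ, map_prod]
      rfl
    have h1 : ∀ h : HK K L, A.ρ (h : L ≃ₐ[ℚ] L) (floc (Additive.ofMul (toC L y)))
        = floc (Additive.ofMul ((h : L ≃ₐ[ℚ] L) • toC L y)) := fun h => floc_smul L hf h.1 _
    rw [Finset.sum_congr rfl fun h _ => h1 h, ← map_sum]
    refine (congrArg (fun c => floc (Additive.ofMul c)) h0).trans (congrArg floc ?_)
    rw [ofMul_prod]
    exact Fintype.sum_equiv (galEquivHK K L) _ _ fun τ => rfl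

end Main

/-! ### The contract (P) and the final number-field statement -/

/-- **Contract (P)**: a `p`-primary class module for the number field `L` (Galois over `ℚ`):
a localisation `C_L → A` of the idele class group at a set of integers prime to `p`, over a
`ℤ_(p)`-like ring `k`, such that `(A, φ)` is a class module for `Gal(L/ℚ)`. -/
def HasPPrimaryClassModule (p : ℕ) (L : Type) [Field L] [NumberField L] : Prop :=
  ∃ (k : Type) (_ : CommRing k) (A : Rep.{0} k (L ≃ₐ[ℚ] L)) (φ : cocycles₂ A)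
    (M : Submonoid ℤ) (floc : Additive (C L) →+ A.V),
    AddHomsLinear k ∧ (∀ q : ℕ, q.Prime → ∀ r : k, (q : k) * r = 0 → r = 0) ∧
    Nonempty (k →+* ZMod p) ∧ IsClassModule A φ ∧ (∀ s ∈ M, ¬ (p : ℤ) ∣ s) ∧
    IsLocRep M (repC L) A floc

/-- The contract (P) from a class module over any model `k` of `ℤ_(p)`. -/
theorem hasPPrimaryClassModule_of_isLocalization (L : Type) [Field L] [NumberField L]
    (k : Type) [CommRing k] [IsLocalization (Fermat.Agent.CFT.A7.BaseChange.primeTo p) k]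
    (A : Rep.{0} k (L ≃ₐ[ℚ] L)) (φ : cocycles₂ A) (hA : IsClassModule A φ)
    (floc : Additive (C L) →+ A.V)
    (hf : IsLocRep (Fermat.Agent.CFT.A7.BaseChange.primeTo p) (repC L) A floc) :
    HasPPrimaryClassModule p L := by
  have hp : p.Prime := Fact.out
  have hle : Fermat.Agent.CFT.A7.BaseChange.primeTo p ≤ nonZeroDivisors ℤ := by
    intro s hs
    refine mem_nonZeroDivisors_of_ne_zero ?_
    rintro rfl
    exact hs (dvd_zero _)
  have hdom : IsDomain k := IsLocalization.isDomain_of_le_nonZeroDivisors k hle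
  have hinj : Function.Injective (algebraMap ℤ k) := IsLocalization.injective k hle
  have hchar : CharZero k := ⟨fun a b hab => by
    have h1 : algebraMap ℤ k (a : ℤ) = algebraMap ℤ k (b : ℤ) := by
      rw [eq_intCast, eq_intCast]
      push_cast
      exact hab
    exact_mod_cast hinj h1⟩
  have hunit : ∀ s : Fermat.Agent.CFT.A7.BaseChange.primeTo p,
      IsUnit (Int.castRingHom (ZMod p) (s : ℤ)) := by
    intro s
    rw [eq_intCast, isUnit_iff_ne_zero, Ne, ZMod.intCast_zmod_eq_zero_iff_dvd]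
    exact s.2
  exact ⟨k, inferInstance, A, φ, Fermat.Agent.CFT.A7.BaseChange.primeTo p, floc,
    TateLocal.addHomsLinear_of_isLocalization (Fermat.Agent.CFT.A7.BaseChange.primeTo p) k,
    fun q hq r h => TateLocal.prime_mul_eq_zero_of_domain k q hq r h,
    ⟨IsLocalization.lift (M := Fermat.Agent.CFT.A7.BaseChange.primeTo p) hunit⟩, hA,
    fun s hs => hs, hf⟩

section Final

variable [IsCyclotomicExtension {p} ℚ K] [IsGalois K L] [Normal ℚ L]

open scoped Pointwise in
/-- **S14b for number fields, modulo (P)**: there is no cyclic extension `L/K` of degree `p` of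
`K = ℚ(ζ_p)` (`p` odd), Galois over `ℚ`, unramified outside `p`, with trivial decomposition groups
above `p`, on which `Gal(K/ℚ)` acts through `ω⁻¹`.  (Hypotheses in the shape of the fields of
`S14/FieldDict.OmegaInvData`.) -/
theorem false_of_pPrimary (hp2 : p ≠ 2) (hP : HasPPrimaryClassModule p L)
    (hdeg : Module.finrank K L = p)
    (hunr : ∀ q : Nat.Primes, (q : ℕ) ≠ p → ¬ (((q : ℕ) : ℤ) ∣ NumberField.discr L))
    (hsplit : ∀ Q : Ideal (𝓞 L), Q.IsPrime → ((p : ℕ) : 𝓞 L) ∈ Q → ∀ σ : L ≃ₐ[K] L,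
      σ • Q = Q → σ = 1)
    (hconj : ∀ (σ : L ≃ₐ[ℚ] L) (h : L ≃ₐ[K] L) (n : ℕ),
      (n : ZMod p) *
        ((cycloGalEquiv p K (AlgEquiv.restrictNormalHom K σ) : (ZMod p)ˣ) : ZMod p) = 1 →
      σ * galHom K L h * σ⁻¹ = galHom K L (h ^ n)) : False := by
  obtain ⟨k, _, A, φ, M, floc, hR, hpR, ⟨π⟩, hA, hM, hf⟩ := hP
  refine false_of_fields K L hp2 hdeg hR hpR π A φ hA M hM floc hf ?_
    (Fermat.Agent.S14.IdeleClassGroup.toCl K)
    (Fermat.Agent.S14.IdeleClassGroup.toCl_surjective K) ?_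
    (Fermat.Agent.S14.IdeleClassGroup.toCl_smul K)
    (fun u hu => Fermat.Agent.S14.UnramNorm.exists_normJ_eq_of_fact p hdeg hunr hsplit u hu)
  · intro σ n hn h hh
    have h1 := hconj σ ((galEquivHK K L).symm ⟨h, hh⟩) n hn
    have h2 : galHom K L ((galEquivHK K L).symm ⟨h, hh⟩) = h :=
      congrArg Subtype.val ((galEquivHK K L).apply_symm_apply ⟨h, hh⟩)
    rw [map_pow, h2] at h1
    exact h1
  · intro x hx
    rw [← Fermat.Agent.S14.IdeleClassGroup.ker_toCl]
    exact hx

end Final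

end Fermat.Agent.S14.Main
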