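import Mathlib
import Fermat.Agent.S14.Main
import Fermat.Agent.CFT.C6.PPrimaryFinal

/-!
# S14b: the contract (P) of `S14/Main`, discharged

For every odd prime `p` and every number field `L` Galois over `ℚ`:
`S14.Main.HasPPrimaryClassModule p L`, with `k := Localization (primeTo p)` and `A` the tensor model
`k ⊗ C_L`, from `C6/PPrimaryFinal.exists_isClassModule_repC`.
-/

set_option autoImplicit false

noncomputable section

namespace Fermat.Agent.S14.PPrimary

open groupCohomology CategoryTheory Rep
open Fermat.Agent.CFT Fermat.Agent.CFT.Idele Fermat.Agent.CFT.A5.Tate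
open Fermat.Agent.CFT.A7.BaseChange

variable (p : ℕ) [hp : Fact p.Prime]

theorem primeTo_le_nonZeroDivisors : primeTo p ≤ nonZeroDivisors ℤ := by
  intro s hs
  refine mem_nonZeroDivisors_of_ne_zero ?_
  rintro rfl
  exact hs (dvd_zero _)

/-- `Localization (primeTo p)` is a localisation of `ℤ` for the canonical `ℤ`-algebra structure
`Ring.toIntAlgebra` (instance diamond with `OreLocalization.instAlgebra`). -/
theorem isLocalization_int (k : Type) [CommRing k] [alg : Algebra ℤ k]
    [h : IsLocalization (primeTo p) k] :
    @IsLocalization ℤ _ (primeTo p) k _ (Ring.toIntAlgebra k) := by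
  obtain rfl : alg = Ring.toIntAlgebra k := Subsingleton.elim _ _
  exact h

/-- **The contract (P) of `S14/Main`** for every number field Galois over `ℚ` (`p` odd). -/
theorem hasPPrimaryClassModule (hp2 : p ≠ 2) (L : Type) [Field L] [NumberField L]
    [IsGalois ℚ L] : Fermat.Agent.S14.Main.HasPPrimaryClassModule p L := by
  have : @IsLocalization ℤ _ (primeTo p) (Localization (primeTo p)) _
      (Ring.toIntAlgebra (Localization (primeTo p))) :=
    isLocalization_int p (Localization (primeTo p))
  have : IsDomain (Localization (primeTo p)) :=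
    IsLocalization.isDomain_of_le_nonZeroDivisors _ (primeTo_le_nonZeroDivisors p)
  have hloc : @IsLocRep ℤ (Localization (primeTo p)) _ _
      (Ring.toIntAlgebra (Localization (primeTo p))) (primeTo p) _ _ (repC L)
      (@tensorRep ℤ (Localization (primeTo p)) _ _ (Ring.toIntAlgebra _) _ _ (repC L))
      (@toTensorRep ℤ (Localization (primeTo p)) _ _ (Ring.toIntAlgebra _) _ _ (repC L)) :=
    @isLocRep_tensorRep ℤ (Localization (primeTo p)) _ _ (Ring.toIntAlgebra _) (primeTo p) _ _
      inferInstance (repC L)
  obtain ⟨φ, hφ⟩ := C6.PPrimaryFinal.exists_isClassModule_repC p hp2 L hloc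
  exact Fermat.Agent.S14.Main.hasPPrimaryClassModule_of_isLocalization L
    (Localization (primeTo p)) _ φ hφ _ hloc

end Fermat.Agent.S14.PPrimary
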