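import Mathlib
import Fermat.Agent.S14.IdeleClassGroup
import Fermat.Agent.S14.EigenProj
import Fermat.Agent.CFT.Stickelberger.Main

/-!
# S14b: from an idele character to a functional on `Cl(K)/p`

A homomorphism `F : J K → ℤ/p` killing the principal ideles and the unit ideles descends to
`clBar F : Cl(K)/p → ℤ/p`; a Galois transformation rule for `F` becomes one for `clBar F` with
respect to the prelude's `clGalAction`.  With Stickelberger's theorem
(`Stickelberger.eq_zero_of_isOmegaEigenvector`) a nonzero `F` transforming by `ω⁻¹` cannot exist: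
`false_of_equivariant`.
-/

set_option autoImplicit false

open scoped NumberField

open Fermat.Agent.CFT.Idele Fermat.Agent.S14.IdeleClassGroup JacobiSumStickelberger

noncomputable section

namespace Fermat.Agent.S14.ClDescent

variable (p : ℕ) [Fact p.Prime] (K : Type) [Field K] [NumberField K]

section Descent

variable (F : J K →* Multiplicative (ZMod p)) (h1 : ∀ a : Kˣ, F (diag K a) = 1)
  (h2 : ∀ x ∈ JTsub K (∅ : Set Nat.Primes), F x = 1)

/-- the additive functional on the class group attached to `F` -/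
def clAdd : Additive (ClassGroup (𝓞 K)) →+ ZMod p where
  toFun c := Multiplicative.toAdd (clLift K F h1 h2 (Additive.toMul c))
  map_zero' := by
    show Multiplicative.toAdd (clLift K F h1 h2 1) = 0
    rw [map_one]; rfl
  map_add' a b := by
    show Multiplicative.toAdd (clLift K F h1 h2 (Additive.toMul a * Additive.toMul b)) = _
    rw [map_mul]; rfl

theorem clAdd_toCl (x : J K) :
    clAdd p K F h1 h2 (Additive.ofMul (toCl K x)) = Multiplicative.toAdd (F x) := by
  show Multiplicative.toAdd (clLift K F h1 h2 (toCl K x)) = _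
  rw [clLift_toCl]

/-- **the functional on `Cl(K)/p` attached to `F`** -/
def clBar : ClGalModule p (𝓞 K) →+ ZMod p :=
  QuotientAddGroup.lift _ (clAdd p K F h1 h2) (by
    rintro _ ⟨y, rfl⟩
    rw [AddMonoidHom.mem_ker, map_nsmul]
    exact ZModModule.char_nsmul_eq_zero p _)

theorem clBar_clProj (c : Additive (ClassGroup (𝓞 K))) :
    clBar p K F h1 h2 (clProj p (𝓞 K) c) = clAdd p K F h1 h2 c := rfl

theorem clBar_clProj_toCl (x : J K) :
    clBar p K F h1 h2 (clProj p (𝓞 K) (Additive.ofMul (toCl K x)))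
      = Multiplicative.toAdd (F x) := by
  rw [clBar_clProj, clAdd_toCl]

theorem clBar_ne_zero (hF : ∃ x, F x ≠ 1) : ∃ a, clBar p K F h1 h2 a ≠ 0 := by
  obtain ⟨x, hx⟩ := hF
  refine ⟨clProj p (𝓞 K) (Additive.ofMul (toCl K x)), ?_⟩
  rw [clBar_clProj_toCl]
  intro h
  exact hx (Multiplicative.toAdd.injective h)

omit [Fact p.Prime] in
/-- every element of `Cl(K)/p` is the class of an idele -/
theorem exists_eq_clProj_toCl (a : ClGalModule p (𝓞 K)) :
    ∃ x : J K, a = clProj p (𝓞 K) (Additive.ofMul (toCl K x)) := by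
  obtain ⟨c, rfl⟩ := clProj_surjective p (𝓞 K) a
  obtain ⟨x, hx⟩ := toCl_surjective K (Additive.toMul c)
  exact ⟨x, by rw [hx]; rfl⟩

variable [IsCyclotomicExtension {p} ℚ K]

/-- the action of `d ∈ (ℤ/p)ˣ` on the class of an idele -/
theorem clGalAction_clProj_toCl (d : (ZMod p)ˣ) (x : J K) :
    clGalAction p K d (clProj p (𝓞 K) (Additive.ofMul (toCl K x)))
      = clProj p (𝓞 K) (Additive.ofMul (toCl K ((cycloGalEquiv p K).symm d • x))) := by
  rw [toCl_smul]
  rfl

/-- **transformation rule** -/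
theorem clBar_clGalAction (c : (K ≃ₐ[ℚ] K) → ZMod p)
    (hc : ∀ (σ : K ≃ₐ[ℚ] K) (x : J K),
      Multiplicative.toAdd (F (σ • x)) = c σ * Multiplicative.toAdd (F x))
    (d : (ZMod p)ˣ) (a : ClGalModule p (𝓞 K)) :
    clBar p K F h1 h2 (clGalAction p K d a)
      = c ((cycloGalEquiv p K).symm d) * clBar p K F h1 h2 a := by
  obtain ⟨x, rfl⟩ := exists_eq_clProj_toCl p K a
  rw [clGalAction_clProj_toCl, clBar_clProj_toCl, clBar_clProj_toCl, hc]

include h1 h2 in
/-- **S14b, final contradiction**: there is no nonzero homomorphism `J_K → ℤ/p` (`K = ℚ(ζ_p)`,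
`p` odd) which kills principal ideles and unit ideles and transforms under `σ_d` by `d⁻¹`. -/
theorem false_of_equivariant (hp2 : p ≠ 2) (hF : ∃ x, F x ≠ 1)
    (hc : ∀ (d : (ZMod p)ˣ) (x : J K),
      Multiplicative.toAdd (F ((cycloGalEquiv p K).symm d • x))
        = ((d⁻¹ : (ZMod p)ˣ) : ZMod p) * Multiplicative.toAdd (F x)) : False := by
  have hf : ∀ (d : (ZMod p)ˣ) (a : ClGalModule p (𝓞 K)),
      clBar p K F h1 h2 (clGalAction p K d a)
        = ((d⁻¹ : (ZMod p)ˣ) : ZMod p) * clBar p K F h1 h2 a := by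
    intro d a
    obtain ⟨x, rfl⟩ := exists_eq_clProj_toCl p K a
    rw [clGalAction_clProj_toCl, clBar_clProj_toCl, clBar_clProj_toCl, hc]
  obtain ⟨a, ha0, ha⟩ := EigenProj.exists_omega_eigenvector (clGalAction p K)
    (clBar p K F h1 h2) hf (clBar_ne_zero p K F h1 h2 hF)
  exact ha0 (Fermat.Agent.CFT.Stickelberger.eq_zero_of_isOmegaEigenvector p K hp2 ha)

end Descent

end Fermat.Agent.S14.ClDescent
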